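import Fermat.Agent.CFT.Density.Galois
import Fermat.Prelude.Def_EllipticCurve_FrobeniusTrace

/-!
# Places of `ℚ̄` above a prime, and existence of Frobenius elements

Places are compared with primes of the ring of all algebraic integers. The last part carries the
Frobenius density theorem of `CFT/Density/Galois` to homomorphisms of the absolute Galois group with
open kernel.
-/

set_option autoImplicit false

noncomputable section

open NumberField IsLocalRing Polynomial
open scoped Pointwise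

namespace Fermat.CFT

local notation "ℚbar" => AlgebraicClosure ℚ
local notation "Γℚ" => AlgebraicClosure ℚ ≃ₐ[ℚ] AlgebraicClosure ℚ

/-- `ℚ̄` is algebraic over `ℚ`. -/
instance qbar_isAlgebraic : Algebra.IsAlgebraic ℚ ℚbar := AlgebraicClosure.isAlgebraic ℚ

/-- `ℚ̄` is an algebraic closure of `ℚ`. -/
instance qbar_isAlgClosure : IsAlgClosure ℚ ℚbar := ⟨inferInstance, inferInstance⟩

/-- `ℚ̄` is normal over `ℚ`. -/
instance qbar_normal : Normal ℚ ℚbar := IsAlgClosure.normal ℚ ℚbar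

/-- `ℚ̄` is Galois over `ℚ`. -/
instance qbar_isGalois : IsGalois ℚ ℚbar where

/-- A normal subfield of `ℚ̄` is Galois over `ℚ`. -/
instance qbar_isGalois_intermediate (L : IntermediateField ℚ ℚbar) [Normal ℚ L] : IsGalois ℚ L where

/-- A finite subfield of `ℚ̄` is a number field. -/
instance qbar_numberField (L : IntermediateField ℚ ℚbar) [FiniteDimensional ℚ L] :
    NumberField L where

variable {A : ValuationSubring ℚbar} {ℓ : ℕ}

/-- Algebraic integers lie in every valuation subring. -/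
lemma coe_mem_valuationSubring (A : ValuationSubring ℚbar) (x : 𝓞 ℚbar) : (x : ℚbar) ∈ A := by
  obtain ⟨p, hp, hpx⟩ := x.isIntegral_coe
  have : IsIntegral A (x : ℚbar) :=
    ⟨p.map (algebraMap ℤ A), hp.map _, by
      rwa [eval₂_map, ← IsScalarTower.algebraMap_eq]⟩
  obtain ⟨a, ha⟩ := IsIntegrallyClosed.algebraMap_eq_of_integral this
  exact ha ▸ a.2

/-- The inclusion of the algebraic integers in a valuation subring. -/
def intToPlace (A : ValuationSubring ℚbar) : 𝓞 ℚbar →+* A :=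
  (algebraMap (𝓞 ℚbar) ℚbar).codRestrict A.toSubring (coe_mem_valuationSubring A)

/-- `intToPlace` does not change the number. -/
@[simp] lemma coe_intToPlace (A : ValuationSubring ℚbar) (x : 𝓞 ℚbar) :
    (intToPlace A x : ℚbar) = x := rfl

/-- The prime of the algebraic integers cut out by a place. -/
def primeOf (A : ValuationSubring ℚbar) : Ideal (𝓞 ℚbar) := (maximalIdeal A).comap (intToPlace A)

/-- `primeOf A` is prime. -/
instance primeOf_isPrime (A : ValuationSubring ℚbar) : (primeOf A).IsPrime :=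
  Ideal.IsPrime.comap _

/-- Membership in `primeOf A`. -/
lemma mem_primeOf {x : 𝓞 ℚbar} : x ∈ primeOf A ↔ (x : ℚbar) ∈ A.nonunits :=
  ValuationSubring.coe_mem_nonunits_iff.symm

/-- `primeOf A` is the kernel of the residue map. -/
lemma mem_primeOf_iff_residue {x : 𝓞 ℚbar} :
    x ∈ primeOf A ↔ residue A (intToPlace A x) = 0 :=
  (residue_eq_zero_iff _).symm

/-- A place over `ℓ` has `ℓ` in its prime. -/
lemma natCast_mem_primeOf (hA : A.LiesOverPrime ℓ) : (ℓ : 𝓞 ℚbar) ∈ primeOf A := by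
  rw [mem_primeOf]
  simpa [ValuationSubring.LiesOverPrime] using hA

/-- An integer in the prime of a place over `ℓ` is a multiple of `ℓ`. -/
lemma dvd_of_intCast_mem_primeOf (hℓ : ℓ.Prime) (hA : A.LiesOverPrime ℓ) {c : ℤ}
    (hc : (c : 𝓞 ℚbar) ∈ primeOf A) : (ℓ : ℤ) ∣ c := by
  have hmax : (Ideal.span {(ℓ : ℤ)}).IsMaximal :=
    PrincipalIdealRing.isMaximal_of_irreducible (Nat.prime_iff_prime_int.mp hℓ).irreducible
  have h : Ideal.span {(ℓ : ℤ)} = (primeOf A).under ℤ := by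
    refine hmax.eq_of_le (Ideal.IsPrime.under ℤ (primeOf A)).ne_top ?_
    rw [Ideal.span_singleton_le_iff_mem, Ideal.mem_comap]
    simpa using natCast_mem_primeOf hA
  rw [← Ideal.mem_span_singleton, h, Ideal.mem_comap]
  simpa using hc

/-- A place over a prime is the localisation of the algebraic integers at its prime. -/
lemma exists_eq_div (hℓ : ℓ.Prime) (hA : A.LiesOverPrime ℓ) {a : ℚbar} (ha : a ∈ A) :
    ∃ b c : 𝓞 ℚbar, c ∉ primeOf A ∧ a = (b : ℚbar) / c := by
  set F : IntermediateField ℚ ℚbar := IntermediateField.adjoin ℚ {a} with hF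
  have : FiniteDimensional ℚ F :=
    IntermediateField.adjoin.finiteDimensional (Algebra.IsIntegral.isIntegral a)
  set P : Ideal (𝓞 F) := (primeOf A).comap (algebraMap (𝓞 F) (𝓞 ℚbar))
  have hP : P.IsPrime := Ideal.IsPrime.comap _
  have hP0 : P ≠ ⊥ := ne_bot_of_natCast_mem hℓ (by
    rw [Ideal.mem_comap, map_natCast]; exact natCast_mem_primeOf hA)
  obtain ⟨u, v, hv, huv⟩ := IsFractionRing.div_surjective (A := 𝓞 F)
    (⟨a, IntermediateField.mem_adjoin_simple_self ℚ a⟩ : F)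
  have hv0 : (v : F) ≠ 0 := by simpa using nonZeroDivisors.ne_zero hv
  have := IsLocalization.AtPrime.isDiscreteValuationRing_of_dedekind_domain (𝓞 F) hP0
    (Localization.AtPrime P)
  have key : ∀ x y : 𝓞 F, algebraMap (𝓞 F) (Localization.AtPrime P) y ∣ algebraMap _ _ x →
      ∃ b c : 𝓞 F, c ∉ P ∧ x * c = y * b := by
    rintro x y ⟨t, ht⟩
    obtain ⟨⟨b, c⟩, hbc⟩ := IsLocalization.surj P.primeCompl t
    refine ⟨b, c, c.2, IsLocalization.injective (Localization.AtPrime P)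
      P.primeCompl_le_nonZeroDivisors ?_⟩
    rw [map_mul, map_mul, ht, mul_assoc, hbc]
  suffices ∃ b c : 𝓞 F, c ∉ P ∧ u * c = v * b by
    obtain ⟨b, c, hc, he⟩ := this
    have hc0 : (c : F) ≠ 0 := fun h =>
      hc (by rw [show c = 0 from RingOfIntegers.ext h]; exact P.zero_mem)
    refine ⟨algebraMap _ _ b, algebraMap _ _ c, hc, ?_⟩
    have h1 : ((⟨a, IntermediateField.mem_adjoin_simple_self ℚ a⟩ : F)) = (b : F) / c := by
      rw [← huv, div_eq_div_iff hv0 hc0, ← map_mul, ← map_mul, he, mul_comm]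
    exact congrArg (fun z : F => (z : ℚbar)) h1
  rcases ValuationRing.dvd_total (algebraMap (𝓞 F) (Localization.AtPrime P) v)
    (algebraMap (𝓞 F) (Localization.AtPrime P) u) with h | h
  · exact key u v h
  · obtain ⟨b, c, hc, he⟩ := key v u h
    refine ⟨c, b, fun hb => hc ?_, he.symm⟩
    -- `c = b * a` with `a` in the place and `b` in its prime
    have hc' : ((c : F) : ℚbar) = ((b : F) : ℚbar) * a := by
      have h1 : (c : F) = (b : F) * ⟨a, IntermediateField.mem_adjoin_simple_self ℚ a⟩ := by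
        rw [← huv, mul_div_assoc', eq_div_iff hv0, ← map_mul, ← map_mul, mul_comm c v, he,
          mul_comm u b]
      exact congrArg (fun z : F => (z : ℚbar)) h1
    rw [Ideal.mem_comap, mem_primeOf] at hb ⊢
    change ((c : F) : ℚbar) ∈ A.nonunits
    rw [hc', A.mem_nonunits_iff, map_mul]
    exact lt_of_le_of_lt (mul_le_of_le_one_right' ((A.valuation_le_one_iff _).mpr ha))
      (A.mem_nonunits_iff.mp hb)

/-- A place over a prime lies in any valuation subring with the same prime. -/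
lemma le_of_primeOf_eq (hℓ : ℓ.Prime) (hA : A.LiesOverPrime ℓ) {B : ValuationSubring ℚbar}
    (h : primeOf A = primeOf B) : A ≤ B := by
  intro a ha
  obtain ⟨b, c, hc, rfl⟩ := exists_eq_div hℓ hA ha
  rw [h, mem_primeOf] at hc
  rw [div_eq_mul_inv]
  refine B.mul_mem _ _ (coe_mem_valuationSubring B b) ?_
  by_contra hinv
  exact hc (B.mem_nonunits_iff_or.mpr (Or.inr hinv))

/-- A place lies over `ℓ` when its prime contains `ℓ`. -/
lemma liesOverPrime_iff {B : ValuationSubring ℚbar} :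
    B.LiesOverPrime ℓ ↔ (ℓ : 𝓞 ℚbar) ∈ primeOf B := by
  rw [mem_primeOf]; simp [ValuationSubring.LiesOverPrime]

/-- A place over a prime is determined by its prime. -/
lemma eq_of_primeOf_eq (hℓ : ℓ.Prime) (hA : A.LiesOverPrime ℓ) {B : ValuationSubring ℚbar}
    (h : primeOf A = primeOf B) : A = B :=
  le_antisymm (le_of_primeOf_eq hℓ hA h)
    (le_of_primeOf_eq hℓ (liesOverPrime_iff.mpr (h ▸ natCast_mem_primeOf hA)) h.symm)

/-- The action on algebraic integers. -/
lemma coe_smul_integer (σ : Γℚ) (x : 𝓞 ℚbar) : ((σ • x : 𝓞 ℚbar) : ℚbar) = σ x := rfl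

/-- The prime of a conjugate place is the conjugate prime. -/
lemma primeOf_smul (σ : Γℚ) (A : ValuationSubring ℚbar) : primeOf (σ • A) = σ • primeOf A := by
  ext x
  rw [Ideal.mem_pointwise_smul_iff_inv_smul_mem, mem_primeOf, mem_primeOf, coe_smul_integer,
    ValuationSubring.mem_nonunits_iff_or, ValuationSubring.mem_nonunits_iff_or,
    ValuationSubring.mem_pointwise_smul_iff_inv_smul_mem, AlgEquiv.smul_def, map_inv₀]
  simp

/-- The decomposition group is the stabiliser of the prime. -/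
lemma mem_decompositionSubgroup_iff (hℓ : ℓ.Prime) (hA : A.LiesOverPrime ℓ) (σ : Γℚ) :
    σ ∈ A.decompositionSubgroup ℚ ↔ σ • primeOf A = primeOf A := by
  rw [MulAction.mem_stabilizer_iff, ← primeOf_smul]
  exact ⟨fun h => by rw [h], fun h => (eq_of_primeOf_eq hℓ hA h.symm).symm⟩

/-- `intToPlace` commutes with the decomposition group. -/
lemma intToPlace_smul {σ : Γℚ} (hσ : σ ∈ A.decompositionSubgroup ℚ) (x : 𝓞 ℚbar) :
    intToPlace A (σ • x) = (⟨σ, hσ⟩ : A.decompositionSubgroup ℚ) • intToPlace A x :=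
  Subtype.ext rfl

/-- The residue of a fraction of algebraic integers. -/
lemma residue_eq_div {b c : 𝓞 ℚbar} (hc : c ∉ primeOf A) (a : A)
    (h : (a : ℚbar) = (b : ℚbar) / c) :
    residue A a = residue A (intToPlace A b) / residue A (intToPlace A c) := by
  have hc' : residue A (intToPlace A c) ≠ 0 := fun h0 => hc (mem_primeOf_iff_residue.mpr h0)
  rw [eq_div_iff hc', ← map_mul]
  congr 1
  apply Subtype.ext
  have hc0 : (c : ℚbar) ≠ 0 := fun h0 =>
    hc (by rw [show c = 0 from RingOfIntegers.ext h0]; exact zero_mem _)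
  rw [MulMemClass.coe_mul, coe_intToPlace, coe_intToPlace, h, div_mul_cancel₀ _ hc0]

/-- Two endomorphisms of the residue field agreeing on algebraic integers agree. -/
lemma residueHom_ext (hℓ : ℓ.Prime) (hA : A.LiesOverPrime ℓ) {k : Type*} [Field k]
    {f g : ResidueField A →+* k}
    (h : ∀ x : 𝓞 ℚbar, f (residue A (intToPlace A x)) = g (residue A (intToPlace A x))) :
    f = g := by
  ext z
  obtain ⟨a, rfl⟩ := residue_surjective z
  obtain ⟨b, c, hc, hbc⟩ := exists_eq_div hℓ hA a.2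
  rw [residue_eq_div hc a hbc, map_div₀, map_div₀, h, h]

/-- Residues agree exactly for congruent algebraic integers. -/
lemma residue_intToPlace_eq_iff {x y : 𝓞 ℚbar} :
    residue A (intToPlace A x) = residue A (intToPlace A y) ↔ x - y ∈ primeOf A := by
  rw [mem_primeOf_iff_residue, map_sub, map_sub, sub_eq_zero]

/-- An element congruent to a power map modulo the prime fixes the prime. -/
lemma smul_primeOf_eq_of_forall {σ : Γℚ} {n : ℕ} (hn : 0 < n)
    (h : ∀ x : 𝓞 ℚbar, σ • x - x ^ n ∈ primeOf A) : σ • primeOf A = primeOf A := by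
  ext y
  have h' := h (σ⁻¹ • y)
  rw [smul_inv_smul] at h'
  rw [Ideal.mem_pointwise_smul_iff_inv_smul_mem, ← (primeOf_isPrime A).pow_mem_iff_mem n hn]
  exact ⟨fun hy => by simpa using add_mem h' hy, fun hy => by simpa using sub_mem hy h'⟩

/-- The residue field of a place above `ℓ` has characteristic `ℓ`. -/
lemma charP_residueField (hℓ : ℓ.Prime) (hA : A.LiesOverPrime ℓ) :
    CharP (ResidueField A) ℓ := by
  refine (CharP.charP_iff_prime_eq_zero hℓ).mpr ?_
  rw [← map_natCast ((residue A).comp (intToPlace A))]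
  exact mem_primeOf_iff_residue.mp (natCast_mem_primeOf hA)

/-- A Frobenius is the power map modulo the prime. -/
lemma smul_sub_pow_mem {σ : Γℚ} {q : ℕ} (h : A.IsFrobeniusAt σ q) (x : 𝓞 ℚbar) :
    σ • x - x ^ q ∈ primeOf A := by
  obtain ⟨hσ, h⟩ := h
  rw [← residue_intToPlace_eq_iff, intToPlace_smul hσ, map_pow, map_pow,
    ← h (residue A (intToPlace A x))]
  rfl

/-- Frobenius at a place over `ℓ` is congruent to the `ℓ`-th power on all algebraic integers
modulo the place. -/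
theorem isFrobeniusAt_iff (hℓ : ℓ.Prime) (hA : A.LiesOverPrime ℓ) (σ : Γℚ) :
    A.IsFrobeniusAt σ ℓ ↔ ∀ x : 𝓞 ℚbar, σ • x - x ^ ℓ ∈ primeOf A := by
  constructor
  · exact fun h x => smul_sub_pow_mem h x
  · intro h
    have hσ : σ ∈ A.decompositionSubgroup ℚ :=
      (mem_decompositionSubgroup_iff hℓ hA σ).mpr (smul_primeOf_eq_of_forall hℓ.pos h)
    have := charP_residueField hℓ hA
    have : Fact ℓ.Prime := ⟨hℓ⟩
    refine ⟨hσ, fun z => ?_⟩
    refine RingHom.congr_fun (residueHom_ext hℓ hA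
      (f := MulSemiringAction.toRingHom _ (ResidueField A) (⟨σ, hσ⟩ : A.decompositionSubgroup ℚ))
      (g := frobenius (ResidueField A) ℓ) fun x => ?_) z
    have := h x
    rw [← residue_intToPlace_eq_iff, intToPlace_smul hσ, map_pow, map_pow] at this
    exact this

/-- Inertia at a place consists of the elements acting trivially on algebraic integers modulo the
place. -/
theorem mem_inertiaSubgroupIn_iff (hℓ : ℓ.Prime) (hA : A.LiesOverPrime ℓ) (σ : Γℚ) :
    σ ∈ A.inertiaSubgroupIn ℚ ↔ ∀ x : 𝓞 ℚbar, σ • x - x ∈ primeOf A := by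
  constructor
  · rintro ⟨g, hg, rfl⟩ x
    rw [← residue_intToPlace_eq_iff, Subgroup.coe_subtype, intToPlace_smul g.2]
    exact RingEquiv.congr_fun (MonoidHom.mem_ker.mp hg) (residue A (intToPlace A x))
  · intro h
    have hσ : σ ∈ A.decompositionSubgroup ℚ :=
      (mem_decompositionSubgroup_iff hℓ hA σ).mpr
        (smul_primeOf_eq_of_forall one_pos (by simpa using h))
    refine ⟨⟨σ, hσ⟩, MonoidHom.mem_ker.mpr (RingEquiv.ext fun z => ?_), rfl⟩
    refine RingHom.congr_fun (residueHom_ext hℓ hA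
      (f := MulSemiringAction.toRingHom _ (ResidueField A) (⟨σ, hσ⟩ : A.decompositionSubgroup ℚ))
      (g := RingHom.id _) fun x => ?_) z
    have := h x
    rw [← residue_intToPlace_eq_iff, intToPlace_smul hσ] at this
    exact this

/-! ### Existence of places -/

/-- Every prime ideal of the integers of a subfield is the restriction of a place. -/
theorem exists_place_over (L : IntermediateField ℚ ℚbar) [FiniteDimensional ℚ L]
    {Q : Ideal (𝓞 L)} (hQ : Q.IsPrime) (hℓ : ℓ.Prime) (hℓQ : (ℓ : 𝓞 L) ∈ Q) :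
    ∃ A : ValuationSubring ℚbar, A.LiesOverPrime ℓ ∧
      (primeOf A).comap (algebraMap (𝓞 L) (𝓞 ℚbar)) = Q := by
  set φ : 𝓞 L →+* ℚbar := (algebraMap (𝓞 ℚbar) ℚbar).comp (algebraMap (𝓞 L) (𝓞 ℚbar)) with hφ
  have hinj : Function.Injective φ := fun x y h => RingOfIntegers.ext (Subtype.ext h)
  have hne : Q.map φ.rangeRestrict ≠ ⊤ := by
    have hb : Function.Bijective φ.rangeRestrict :=
      ⟨fun x y h => by
        have h' := congrArg Subtype.val h
        exact hinj h', φ.rangeRestrict_surjective⟩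
    intro h
    apply hQ.ne_top
    rw [← Ideal.comap_map_of_bijective _ hb (I := Q), h, Ideal.comap_top]
  obtain ⟨B, -, hB⟩ := Ideal.image_subset_nonunits_valuationSubring _ hne
  have hsub : Q ≤ (primeOf B).comap (algebraMap (𝓞 L) (𝓞 ℚbar)) := fun x hx => by
    rw [Ideal.mem_comap, mem_primeOf]
    exact hB ⟨φ.rangeRestrict x, Ideal.mem_map_of_mem _ hx, rfl⟩
  have hmax : Q.IsMaximal := hQ.isMaximal (ne_bot_of_natCast_mem hℓ hℓQ)
  refine ⟨B, ?_, (hmax.eq_of_le (Ideal.IsPrime.comap _).ne_top hsub).symm⟩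
  have := hsub hℓQ
  rw [Ideal.mem_comap, map_natCast] at this
  exact liesOverPrime_iff.mpr this

/-- Every prime number has a place over it. -/
theorem exists_place (hℓ : ℓ.Prime) : ∃ A : ValuationSubring ℚbar, A.LiesOverPrime ℓ := by
  have : (Ideal.span {(ℓ : ℤ)}).IsPrime :=
    (Ideal.span_singleton_prime (by exact_mod_cast hℓ.ne_zero)).mpr (Nat.prime_iff_prime_int.mp hℓ)
  obtain ⟨Q, -, hQ, hQc⟩ := Ideal.exists_ideal_over_prime_of_isIntegral
    (S := 𝓞 (⊥ : IntermediateField ℚ ℚbar)) (Ideal.span {(ℓ : ℤ)}) ⊥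
    (by rw [Ideal.comap_bot_of_injective _ (FaithfulSMul.algebraMap_injective ℤ _)]; exact bot_le)
  have hℓQ : (ℓ : 𝓞 (⊥ : IntermediateField ℚ ℚbar)) ∈ Q := by
    have h : (ℓ : ℤ) ∈ Ideal.span {(ℓ : ℤ)} := Ideal.mem_span_singleton_self _
    rw [← hQc, Ideal.mem_comap] at h
    simpa using h
  obtain ⟨A, hA, -⟩ := exists_place_over _ hQ hℓ hℓQ
  exact ⟨A, hA⟩

/-! ### The profinite Galois action on algebraic integers -/

/-- The Galois invariants of the algebraic integers are the rational integers. -/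
lemma isInvariant_algebraicIntegers : Algebra.IsInvariant ℤ (𝓞 ℚbar) Γℚ := by
  refine ⟨fun b hb => ?_⟩
  obtain ⟨q, hint, hq⟩ := exists_isIntegral_eq_of_fixed (F := ℚ) b
    fun g => congrArg (fun z : 𝓞 ℚbar => (z : ℚbar)) (hb g)
  obtain ⟨z, rfl⟩ := IsIntegrallyClosed.algebraMap_eq_of_integral hint
  exact ⟨z, RingOfIntegers.ext (by rw [← hq]; simp)⟩

/-- The algebraic integers get the discrete topology. -/
local instance : TopologicalSpace (𝓞 ℚbar) := ⊥
/-- The topology on the algebraic integers is discrete. -/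
local instance : DiscreteTopology (𝓞 ℚbar) := ⟨rfl⟩

/-- The Galois action on algebraic integers, as a discrete space, is continuous. -/
lemma continuousSMul_algebraicIntegers : ContinuousSMul Γℚ (𝓞 ℚbar) := by
  refine continuousSMul_iff_stabilizer_isOpen.mpr fun x => ?_
  have := IntermediateField.adjoin.finiteDimensional
    (Algebra.IsIntegral.isIntegral (R := ℚ) (x : ℚbar))
  refine Subgroup.isOpen_mono ?_
    (IntermediateField.fixingSubgroup_isOpen (IntermediateField.adjoin ℚ {(x : ℚbar)}))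
  intro g hg
  exact RingOfIntegers.ext (hg ⟨x, IntermediateField.mem_adjoin_simple_self ℚ (x : ℚbar)⟩)

/-- The prime of a place over `ℓ` lies over `(ℓ)`. -/
lemma under_int_primeOf (hℓ : ℓ.Prime) (hA : A.LiesOverPrime ℓ) :
    (primeOf A).under ℤ = Ideal.span {(ℓ : ℤ)} := by
  have hmax : (Ideal.span {(ℓ : ℤ)}).IsMaximal :=
    PrincipalIdealRing.isMaximal_of_irreducible (Nat.prime_iff_prime_int.mp hℓ).irreducible
  refine (hmax.eq_of_le (Ideal.IsPrime.under ℤ (primeOf A)).ne_top ?_).symm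
  rw [Ideal.span_singleton_le_iff_mem, Ideal.mem_comap]
  simpa using natCast_mem_primeOf hA

/-- The places above a prime number are conjugate. -/
theorem exists_smul_place (hℓ : ℓ.Prime) (hA : A.LiesOverPrime ℓ) {B : ValuationSubring ℚbar}
    (hB : B.LiesOverPrime ℓ) : ∃ σ : Γℚ, σ • A = B := by
  have := isInvariant_algebraicIntegers
  have := continuousSMul_algebraicIntegers
  obtain ⟨σ, hσ⟩ := Algebra.IsInvariant.exists_smul_of_under_eq_of_profinite (G := Γℚ)
    (A := ℤ) (primeOf A) (primeOf B)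
    ((under_int_primeOf hℓ hA).trans (under_int_primeOf hℓ hB).symm)
  exact ⟨σ, (eq_of_primeOf_eq hℓ hB (hσ.trans (primeOf_smul σ A).symm)).symm⟩

/-- Frobenius elements exist at every place over a prime number. -/
theorem exists_isFrobeniusAt (hℓ : ℓ.Prime) (hA : A.LiesOverPrime ℓ) :
    ∃ σ : Γℚ, A.IsFrobeniusAt σ ℓ := by
  have := isInvariant_algebraicIntegers
  have := continuousSMul_algebraicIntegers
  have hP := under_int_primeOf hℓ hA
  -- the prime of the place is maximal, with residue field of characteristic `ℓ`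
  have hmax : (primeOf A).IsMaximal := by
    refine Ideal.isMaximal_of_isIntegral_of_isMaximal_comap (R := ℤ) _ ?_
    change ((primeOf A).under ℤ).IsMaximal
    rw [hP]
    exact PrincipalIdealRing.isMaximal_of_irreducible (Nat.prime_iff_prime_int.mp hℓ).irreducible
  have : Fact ℓ.Prime := ⟨hℓ⟩
  let := Ideal.Quotient.field (primeOf A)
  have hchar : CharP (𝓞 ℚbar ⧸ primeOf A) ℓ :=
    (CharP.charP_iff_prime_eq_zero hℓ).mpr (by
      rw [← map_natCast (Ideal.Quotient.mk (primeOf A)), Ideal.Quotient.eq_zero_iff_mem]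
      exact natCast_mem_primeOf hA)
  -- Frobenius is an automorphism of this residue field
  have hbij : Function.Bijective (frobenius (𝓞 ℚbar ⧸ primeOf A) ℓ) := by
    refine ⟨frobenius_inj _ _, fun y => ?_⟩
    obtain ⟨b, rfl⟩ := Ideal.Quotient.mk_surjective y
    obtain ⟨z, hz⟩ := IsAlgClosed.exists_pow_nat_eq (b : ℚbar) hℓ.pos
    have hzint : IsIntegral ℤ z := IsIntegral.of_pow hℓ.pos (hz ▸ b.isIntegral_coe)
    let w : 𝓞 ℚbar := ⟨z, hzint⟩
    refine ⟨Ideal.Quotient.mk _ w, ?_⟩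
    rw [frobenius_def, ← map_pow]
    congr 1
    exact RingOfIntegers.ext hz
  let φ : (𝓞 ℚbar ⧸ primeOf A) ≃ₐ[ℤ ⧸ (primeOf A).under ℤ] (𝓞 ℚbar ⧸ primeOf A) :=
    AlgEquiv.ofRingEquiv (f := RingEquiv.ofBijective _ hbij) fun x => by
      obtain ⟨n, rfl⟩ := Ideal.Quotient.mk_surjective x
      change frobenius (𝓞 ℚbar ⧸ primeOf A) ℓ (algebraMap (ℤ ⧸ _) _ (Ideal.Quotient.mk _ n)) = _
      rw [Ideal.Quotient.algebraMap_mk_of_liesOver, eq_intCast, map_intCast, map_intCast]
  -- lift it to the decomposition group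
  obtain ⟨g, hg⟩ := Ideal.Quotient.stabilizerHom_surjective_of_profinite (G := Γℚ)
    ((primeOf A).under ℤ) (primeOf A) φ
  refine ⟨g.1, (isFrobeniusAt_iff hℓ hA _).mpr fun x => ?_⟩
  rw [← Ideal.Quotient.eq, map_pow]
  exact DFunLike.congr_fun hg (Ideal.Quotient.mk (primeOf A) x)

/-- Two Frobenius elements at one place differ by inertia. -/
theorem mul_inv_mem_inertiaSubgroupIn (hℓ : ℓ.Prime) (hA : A.LiesOverPrime ℓ) {σ τ : Γℚ}
    (hσ : A.IsFrobeniusAt σ ℓ) (hτ : A.IsFrobeniusAt τ ℓ) :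
    σ * τ⁻¹ ∈ A.inertiaSubgroupIn ℚ := by
  refine (mem_inertiaSubgroupIn_iff hℓ hA _).mpr fun x => ?_
  simpa [mul_smul] using
    sub_mem ((isFrobeniusAt_iff hℓ hA σ).mp hσ (τ⁻¹ • x))
      ((isFrobeniusAt_iff hℓ hA τ).mp hτ (τ⁻¹ • x))

/-- A Frobenius times inertia is a Frobenius. -/
theorem isFrobeniusAt_inertia_mul (hℓ : ℓ.Prime) (hA : A.LiesOverPrime ℓ) {σ τ : Γℚ}
    (hσ : A.IsFrobeniusAt σ ℓ) (hτ : τ ∈ A.inertiaSubgroupIn ℚ) :
    A.IsFrobeniusAt (τ * σ) ℓ := by
  refine (isFrobeniusAt_iff hℓ hA _).mpr fun x => ?_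
  simpa [mul_smul] using
    add_mem ((mem_inertiaSubgroupIn_iff hℓ hA τ).mp hτ (σ • x))
      ((isFrobeniusAt_iff hℓ hA σ).mp hσ x)

/-- Conjugate places lie over the same prime. -/
lemma liesOverPrime_smul (σ : Γℚ) (hA : A.LiesOverPrime ℓ) : (σ • A).LiesOverPrime ℓ := by
  rw [liesOverPrime_iff, primeOf_smul, Ideal.mem_pointwise_smul_iff_inv_smul_mem]
  have h : σ⁻¹ • (ℓ : 𝓞 ℚbar) = ℓ := map_natCast (MulSemiringAction.toRingHom Γℚ (𝓞 ℚbar) σ⁻¹) ℓ
  rw [h]; exact natCast_mem_primeOf hA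

/-- Conjugating a Frobenius gives a Frobenius at the conjugate place. -/
theorem isFrobeniusAt_conj (hℓ : ℓ.Prime) (hA : A.LiesOverPrime ℓ) {σ : Γℚ}
    (hσ : A.IsFrobeniusAt σ ℓ) (τ : Γℚ) : (τ • A).IsFrobeniusAt (τ * σ * τ⁻¹) ℓ := by
  refine (isFrobeniusAt_iff hℓ (liesOverPrime_smul τ hA) _).mpr fun x => ?_
  rw [primeOf_smul, Ideal.mem_pointwise_smul_iff_inv_smul_mem]
  simpa [mul_smul, smul_sub, smul_pow'] using (isFrobeniusAt_iff hℓ hA σ).mp hσ (τ⁻¹ • x)

/-- Conjugating inertia gives inertia at the conjugate place. -/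
theorem mem_inertiaSubgroupIn_smul (hℓ : ℓ.Prime) (hA : A.LiesOverPrime ℓ) {σ : Γℚ}
    (hσ : σ ∈ A.inertiaSubgroupIn ℚ) (τ : Γℚ) :
    τ * σ * τ⁻¹ ∈ (τ • A).inertiaSubgroupIn ℚ := by
  refine (mem_inertiaSubgroupIn_iff hℓ (liesOverPrime_smul τ hA) _).mpr fun x => ?_
  rw [primeOf_smul, Ideal.mem_pointwise_smul_iff_inv_smul_mem]
  simpa [mul_smul, smul_sub] using (mem_inertiaSubgroupIn_iff hℓ hA σ).mp hσ (τ⁻¹ • x)

/-! ### Finite level -/

section FiniteLevel

variable (L : IntermediateField ℚ ℚbar) [FiniteDimensional ℚ L]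

/-- The prime of `L` cut out by a place of `ℚ̄`. -/
def primeBelow (A : ValuationSubring ℚbar) : Ideal (𝓞 L) :=
  (primeOf A).comap (algebraMap (𝓞 L) (𝓞 ℚbar))

/-- `primeBelow L A` is prime. -/
instance primeBelow_isPrime (A : ValuationSubring ℚbar) : (primeBelow L A).IsPrime :=
  Ideal.IsPrime.comap _

omit [FiniteDimensional ℚ L] in
/-- The prime below a place over `ℓ` contains `ℓ`. -/
lemma natCast_mem_primeBelow (hA : A.LiesOverPrime ℓ) : (ℓ : 𝓞 L) ∈ primeBelow L A := by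
  rw [primeBelow, Ideal.mem_comap, map_natCast]; exact natCast_mem_primeOf hA

variable [Normal ℚ L]

omit [FiniteDimensional ℚ L] in
/-- Restriction to `L` commutes with the inclusion of integers. -/
lemma algebraMap_restrict_smul (σ : Γℚ) (x : 𝓞 L) :
    algebraMap (𝓞 L) (𝓞 ℚbar) (AlgEquiv.restrictNormalHom L σ • x) =
      σ • algebraMap (𝓞 L) (𝓞 ℚbar) x :=
  RingOfIntegers.ext (AlgEquiv.restrictNormal_commutes σ L (x : L))

/-- A Frobenius of a place restricts to a Frobenius of the prime below. -/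
lemma isFrobeniusMod_restrict (hℓ : ℓ.Prime) (hA : A.LiesOverPrime ℓ) {σ : Γℚ}
    (hσ : A.IsFrobeniusAt σ ℓ) :
    IsFrobeniusMod (AlgEquiv.restrictNormalHom L σ) (primeBelow L A) ℓ := by
  intro x
  rw [primeBelow, Ideal.mem_comap, map_sub, map_pow, algebraMap_restrict_smul]
  exact (isFrobeniusAt_iff hℓ hA σ).mp hσ _

/-- At an unexceptional prime inertia restricts trivially. -/
lemma restrict_eq_one_of_mem_inertia (hℓ : ℓ.Prime) (hgood : ℓ ∉ exceptionalPrimes L)
    (hA : A.LiesOverPrime ℓ) {σ : Γℚ} (hσ : σ ∈ A.inertiaSubgroupIn ℚ) :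
    AlgEquiv.restrictNormalHom L σ = 1 := by
  refine inertia_eq_one hℓ hgood (primeBelow_isPrime L A) (natCast_mem_primeBelow L hA) fun x => ?_
  rw [primeBelow, Ideal.mem_comap, map_sub, algebraMap_restrict_smul]
  exact (mem_inertiaSubgroupIn_iff hℓ hA σ).mp hσ _

omit [FiniteDimensional ℚ L] in
/-- An element restricts trivially exactly when it fixes `L`. -/
lemma restrict_eq_one_iff (σ : Γℚ) :
    AlgEquiv.restrictNormalHom L σ = 1 ↔ σ ∈ L.fixingSubgroup := by
  rw [IntermediateField.mem_fixingSubgroup_iff]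
  constructor
  · intro h x hx
    have := AlgEquiv.restrictNormal_commutes σ L ⟨x, hx⟩
    rw [show σ.restrictNormal L = (1 : L ≃ₐ[ℚ] L) from h] at this
    exact this.symm
  · intro h
    ext x
    exact (AlgEquiv.restrictNormal_commutes σ L x).trans (h _ x.2)

/-- Outside a finite set of primes, inertia acts trivially on `L`. -/
lemma inertiaSubgroupIn_le_fixingSubgroup (hℓ : ℓ.Prime) (hgood : ℓ ∉ exceptionalPrimes L)
    (hA : A.LiesOverPrime ℓ) : A.inertiaSubgroupIn ℚ ≤ L.fixingSubgroup := fun σ hσ =>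
  (restrict_eq_one_iff L σ).mp (restrict_eq_one_of_mem_inertia L hℓ hgood hA hσ)

omit [Normal ℚ L] in
/-- At an unexceptional prime, two Frobenius elements at one place agree on `L`. -/
lemma isFrobeniusMod_unique {p : ℕ} (hp : p.Prime) (hgood : p ∉ exceptionalPrimes L)
    {Q : Ideal (𝓞 L)} (hQ : Q.IsPrime) (hpQ : (p : 𝓞 L) ∈ Q) {g g' : L ≃ₐ[ℚ] L}
    (h : IsFrobeniusMod g Q p) (h' : IsFrobeniusMod g' Q p) : g = g' := by
  refine mul_inv_eq_one.mp (inertia_eq_one hp hgood hQ hpQ fun y => ?_)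
  simpa [mul_smul] using Q.sub_mem (h (g'⁻¹ • y)) (h' (g'⁻¹ • y))

/-- **Frobenius density theorem** for `L/ℚ`, in terms of places of `ℚ̄`. -/
theorem exists_place_frobenius_generating (σ : Γℚ) (T : Finset ℕ) :
    ∃ ℓ : ℕ, ℓ.Prime ∧ ℓ ∉ T ∧ ℓ ∉ exceptionalPrimes L ∧
      ∃ A : ValuationSubring ℚbar, A.LiesOverPrime ℓ ∧ ∃ φ : Γℚ, A.IsFrobeniusAt φ ℓ ∧
        Subgroup.zpowers (AlgEquiv.restrictNormalHom L φ) =
          Subgroup.zpowers (AlgEquiv.restrictNormalHom L σ) := by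
  obtain ⟨p, hp, hpT, hgood, Q, g, hQ, hpQ, hg, hgen⟩ :=
    exists_frobenius_generating (AlgEquiv.restrictNormalHom L σ) T
  obtain ⟨A, hA, hAQ⟩ := exists_place_over L hQ hp hpQ
  obtain ⟨φ, hφ⟩ := exists_isFrobeniusAt hp hA
  refine ⟨p, hp, hpT, hgood, A, hA, φ, hφ, ?_⟩
  have hAQ' : primeBelow L A = Q := hAQ
  have h1 : IsFrobeniusMod (AlgEquiv.restrictNormalHom L φ) Q p := by
    have h0 := isFrobeniusMod_restrict L hp hA hφ
    rwa [hAQ'] at h0
  rw [isFrobeniusMod_unique L hp hgood hQ hpQ h1 hg, hgen]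

end FiniteLevel

/-! ### Corollaries for open kernels -/

/-- A homomorphism trivial on the fixing group of a finite extension has open kernel. -/
lemma isOpen_ker_of_forall {M : Type*} [MulOneClass M] (ρ : Γℚ →* M)
    (L : IntermediateField ℚ ℚbar) [FiniteDimensional ℚ L]
    (h : ∀ σ : Γℚ, (∀ x ∈ L, σ x = x) → ρ σ = 1) : IsOpen (ρ.ker : Set Γℚ) :=
  Subgroup.isOpen_mono (fun σ hσ => h σ ((IntermediateField.mem_fixingSubgroup_iff L σ).mp hσ))
    (IntermediateField.fixingSubgroup_isOpen L)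

/-- An open subgroup contains the fixing group of a finite normal extension. -/
lemma exists_normal_fixingSubgroup_le {U : Subgroup Γℚ} (hU : IsOpen (U : Set Γℚ)) :
    ∃ L : IntermediateField ℚ ℚbar, FiniteDimensional ℚ L ∧ Normal ℚ L ∧ L.fixingSubgroup ≤ U := by
  obtain ⟨E, hE, hEU⟩ := krullTopology_mem_nhds_one_iff ℚ ℚbar (U : Set Γℚ) |>.mp
    (hU.mem_nhds U.one_mem)
  refine ⟨IntermediateField.normalClosure ℚ E ℚbar, inferInstance, ?_, fun g hg => ?_⟩
  · exact normalClosure.normal ℚ E ℚbar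
  exact hEU (IntermediateField.fixingSubgroup_antitone E.le_normalClosure hg)

variable {M : Type*} [Group M]

/-- A homomorphism with open kernel is unramified at almost all primes. -/
theorem exists_finset_map_inertia_eq_one (ρ : Γℚ →* M) (hρ : IsOpen (ρ.ker : Set Γℚ)) :
    ∃ T : Finset ℕ, ∀ ℓ : ℕ, ℓ.Prime → ℓ ∉ T → ∀ A : ValuationSubring ℚbar, A.LiesOverPrime ℓ →
      ∀ σ ∈ A.inertiaSubgroupIn ℚ, ρ σ = 1 := by
  obtain ⟨L, hL, hLn, hLU⟩ := exists_normal_fixingSubgroup_le hρ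
  exact ⟨exceptionalPrimes L, fun ℓ hℓ hgood A hA σ hσ =>
    hLU (inertiaSubgroupIn_le_fixingSubgroup L hℓ hgood hA hσ)⟩

/-- **Frobenius density theorem**: for a homomorphism with open kernel, every cyclic subgroup of
the image is generated by the image of a Frobenius outside any given finite set. -/
theorem exists_frobenius_map_zpowers_eq (ρ : Γℚ →* M) (hρ : IsOpen (ρ.ker : Set Γℚ)) (σ : Γℚ)
    (T : Finset ℕ) :
    ∃ ℓ : ℕ, ℓ.Prime ∧ ℓ ∉ T ∧
      ∃ A : ValuationSubring ℚbar, A.LiesOverPrime ℓ ∧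
        (∀ g ∈ A.inertiaSubgroupIn ℚ, ρ g = 1) ∧
        ∃ φ : Γℚ, A.IsFrobeniusAt φ ℓ ∧ Subgroup.zpowers (ρ φ) = Subgroup.zpowers (ρ σ) := by
  obtain ⟨L, hL, hLn, hLU⟩ := exists_normal_fixingSubgroup_le hρ
  obtain ⟨ℓ, hℓ, hT, hgood, A, hA, φ, hφ, hgen⟩ := exists_place_frobenius_generating L σ T
  refine ⟨ℓ, hℓ, hT, A, hA,
    fun g hg => hLU (inertiaSubgroupIn_le_fixingSubgroup L hℓ hgood hA hg), φ, hφ, ?_⟩
  have key : ∀ a b : Γℚ,
      AlgEquiv.restrictNormalHom L a ∈ Subgroup.zpowers (AlgEquiv.restrictNormalHom L b) →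
      ρ a ∈ Subgroup.zpowers (ρ b) := by
    rintro a b ⟨k, hk⟩
    have h1 : AlgEquiv.restrictNormalHom L ((b ^ k)⁻¹ * a) = 1 := by
      rw [map_mul, map_inv, map_zpow]; simp only at hk; rw [hk, inv_mul_cancel]
    have h2 : (b ^ k)⁻¹ * a ∈ ρ.ker := hLU ((restrict_eq_one_iff L _).mp h1)
    rw [MonoidHom.mem_ker, map_mul, map_inv, inv_mul_eq_one, map_zpow] at h2
    exact ⟨k, h2⟩
  refine le_antisymm (Subgroup.zpowers_le.mpr (key _ _ ?_)) (Subgroup.zpowers_le.mpr (key _ _ ?_))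
  · rw [← hgen]; exact Subgroup.mem_zpowers _
  · rw [hgen]; exact Subgroup.mem_zpowers _

/-- **Frobenius density theorem, power form**: the image of every element is a power of the image of
a Frobenius outside any given finite set. -/
theorem exists_frobenius_map_eq_pow [Finite M] (ρ : Γℚ →* M) (hρ : IsOpen (ρ.ker : Set Γℚ))
    (σ : Γℚ) (T : Finset ℕ) :
    ∃ ℓ : ℕ, ℓ.Prime ∧ ℓ ∉ T ∧
      ∃ A : ValuationSubring ℚbar, A.LiesOverPrime ℓ ∧
        (∀ g ∈ A.inertiaSubgroupIn ℚ, ρ g = 1) ∧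
        ∃ φ : Γℚ, A.IsFrobeniusAt φ ℓ ∧ ∃ k : ℕ, ρ σ = ρ φ ^ k := by
  obtain ⟨ℓ, hℓ, hT, A, hA, hI, φ, hφ, hgen⟩ := exists_frobenius_map_zpowers_eq ρ hρ σ T
  refine ⟨ℓ, hℓ, hT, A, hA, hI, φ, hφ, ?_⟩
  have h : ρ σ ∈ Subgroup.zpowers (ρ φ) := hgen ▸ Subgroup.mem_zpowers _
  rw [← mem_powers_iff_mem_zpowers] at h
  obtain ⟨k, hk⟩ := h
  exact ⟨k, hk.symm⟩

end Fermat.CFT
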