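import Fermat.Agent.CFT.Density.Places
import Fermat.Prelude.Def_ExtCitation_AdmissibleExtension
import Fermat.Prelude.Def_ExtCitation_KummerBridge
import Fermat.Prelude.Def_GaloisRep_ComplexConjugation

/-!
# The mod `q` cyclotomic character of `ℚ̄`

`cycChar`: unramified outside `q` (`cycChar_eq_one_of_mem_inertia`), sends a Frobenius at `ℓ` to `ℓ`
(`cycChar_frobenius`) and complex conjugation to `-1`. It serves as the mod `p` cyclotomic character
throughout.
-/

set_option autoImplicit false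

noncomputable section

open NumberField

namespace Fermat.CFT

local notation "ℚbar" => AlgebraicClosure ℚ
local notation "Γℚ" => AlgebraicClosure ℚ ≃ₐ[ℚ] AlgebraicClosure ℚ

variable (q : ℕ) [hq : Fact q.Prime]

/-- The mod `q` cyclotomic character. -/
def cycChar : Γℚ →* (ZMod q)ˣ :=
  have : NeZero q := ⟨hq.out.ne_zero⟩
  MonoidHom.mk' (fun σ => modularCyclotomicCharacter ℚbar (ExtCitation.card_rootsOfUnity_eq_self q)
      (σ : ℚbar ≃+* ℚbar))
    fun σ τ => by rw [← map_mul]; rfl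

/-- `cycloExp` reduces to the cyclotomic character. -/
lemma cycloExp_cast (σ : Γℚ) :
    (ExtCitation.cycloExp q σ : ZMod q) = ((cycChar q σ : (ZMod q)ˣ) : ZMod q) := by
  have : NeZero q := ⟨hq.out.ne_zero⟩
  rw [ExtCitation.cycloExp, ZMod.natCast_val, ZMod.cast_id]
  rfl

variable {q}

/-- The action on `q`-th roots of unity. -/
lemma apply_eq_pow_cycChar (σ : Γℚ) {x : ℚbar} (hx : x ^ q = 1) :
    σ x = x ^ ((cycChar q σ : (ZMod q)ˣ) : ZMod q).val := by
  have : NeZero q := ⟨hq.out.ne_zero⟩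
  let t := rootsOfUnity.mkOfPowEq x hx
  have h := modularCyclotomicCharacter.spec ℚbar (ExtCitation.card_rootsOfUnity_eq_self q)
    (σ : ℚbar ≃+* ℚbar) t.2
  rw [rootsOfUnity.val_mkOfPowEq_coe] at h
  exact h

/-- The character read off from the action on a primitive root. -/
lemma cycChar_eq_of_apply {σ : Γℚ} {z : ℚbar} (hz : IsPrimitiveRoot z q) {c : ℕ}
    (h : σ z = z ^ c) : ((cycChar q σ : (ZMod q)ˣ) : ZMod q) = c := by
  have : NeZero q := ⟨hq.out.ne_zero⟩
  have h1 := (apply_eq_pow_cycChar σ hz.pow_eq_one).symm.trans h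
  rw [← pow_mod_orderOf z c, ← hz.eq_orderOf] at h1
  have h2 := hz.pow_inj (ZMod.val_lt _) (Nat.mod_lt _ hq.out.pos) h1
  calc ((cycChar q σ : (ZMod q)ˣ) : ZMod q)
      = ((((cycChar q σ : (ZMod q)ˣ) : ZMod q).val : ℕ) : ZMod q) := (ZMod.natCast_zmod_val _).symm
    _ = _ := by rw [h2, ZMod.natCast_mod]

/-- The character is trivial exactly when a primitive root is fixed. -/
lemma cycChar_eq_one_iff {σ : Γℚ} {z : ℚbar} (hz : IsPrimitiveRoot z q) :
    cycChar q σ = 1 ↔ σ z = z := by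
  constructor
  · intro h
    rw [apply_eq_pow_cycChar σ hz.pow_eq_one, h, Units.val_one, ZMod.val_one, pow_one]
  · intro h
    exact Units.ext (by rw [cycChar_eq_of_apply hz (c := 1) (by rw [h, pow_one]), Nat.cast_one,
      Units.val_one])

/-- `ℚ̄` has a primitive `q`-th root of unity. -/
lemma exists_primitiveRoot_qbar : ∃ z : ℚbar, IsPrimitiveRoot z q := by
  have : NeZero q := ⟨hq.out.ne_zero⟩
  have : NeZero (q : ℚbar) := ⟨Nat.cast_ne_zero.mpr hq.out.ne_zero⟩
  exact HasEnoughRootsOfUnity.exists_primitiveRoot ℚbar q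

variable (q) in
/-- The character has open kernel. -/
lemma isOpen_cycChar_ker : IsOpen ((cycChar q).ker : Set Γℚ) := by
  obtain ⟨z, hz⟩ := exists_primitiveRoot_qbar (q := q)
  have := IntermediateField.adjoin.finiteDimensional (Algebra.IsIntegral.isIntegral (R := ℚ) z)
  exact isOpen_ker_of_forall _ (IntermediateField.adjoin ℚ {z}) fun σ hσ =>
    (cycChar_eq_one_iff hz).mpr (hσ z (IntermediateField.mem_adjoin_simple_self ℚ z))

variable (q) in
/-- The cyclotomic character is surjective. -/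
theorem cycChar_surjective : Function.Surjective (cycChar q) := by
  intro c
  have : NeZero q := ⟨hq.out.ne_zero⟩
  obtain ⟨z, hz⟩ := exists_primitiveRoot_qbar (q := q)
  have hz' : IsPrimitiveRoot (z ^ (c : ZMod q).val) q :=
    hz.pow_of_coprime _ (ZMod.val_coe_unit_coprime c)
  obtain ⟨σ, hσ⟩ := (isConjRoot_iff_exists_algEquiv (K := ℚ)).mp
    (show IsConjRoot ℚ z (z ^ (c : ZMod q).val) by
      rw [isConjRoot_def, ← Polynomial.cyclotomic_eq_minpoly_rat hz hq.out.pos,
        ← Polynomial.cyclotomic_eq_minpoly_rat hz' hq.out.pos])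
  exact ⟨σ⁻¹, Units.ext (by
    rw [cycChar_eq_of_apply hz (σ := σ⁻¹) (c := (c : ZMod q).val)
      (by rw [AlgEquiv.aut_inv, AlgEquiv.symm_apply_eq]; exact hσ.symm),
      ZMod.natCast_zmod_val])⟩

/-- Complex conjugation has cyclotomic character `-1`. -/
lemma cycloChar_complexConjugation :
    ((ExtCitation.cycloChar q complexConjugation : (ZMod q)ˣ) : ZMod q) = -1 := by
  obtain ⟨z, hz⟩ := exists_primitiveRoot_qbar (q := q)
  have h1 : complexConjugation z = z ^ (q - 1) := by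
    apply complexEmbedding.toRingHom.injective
    change complexEmbedding (complexConjugation z) = complexEmbedding (z ^ (q - 1))
    rw [complexEmbedding_complexConjugation, map_pow]
    have hn : ‖complexEmbedding z‖ = 1 := Complex.norm_eq_one_of_pow_eq_one (n := q)
      (by rw [← map_pow, hz.pow_eq_one, map_one]) hq.out.ne_zero
    rw [← Complex.inv_eq_conj hn]
    refine inv_eq_of_mul_eq_one_right ?_
    rw [← pow_succ', Nat.sub_add_cancel hq.out.one_le, ← map_pow, hz.pow_eq_one, map_one]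
  change ((cycChar q complexConjugation : (ZMod q)ˣ) : ZMod q) = -1
  rw [cycChar_eq_of_apply hz h1, Nat.cast_sub hq.out.one_le, ZMod.natCast_self, Nat.cast_one,
    zero_sub]

variable {A : ValuationSubring ℚbar} {ℓ : ℕ}

/-- At a place over a prime `ℓ ≠ q`, distinct powers of a primitive `q`-th root of unity stay
distinct modulo the place. -/
lemma sub_notMem_primeOf (hℓ : ℓ.Prime) (hℓq : ℓ ≠ q) (hA : A.LiesOverPrime ℓ) {z : 𝓞 ℚbar}
    (hz : IsPrimitiveRoot (z : ℚbar) q) {i j : ℕ}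
    (hne : ((i : ℕ) : ZMod q) ≠ (j : ZMod q)) : z ^ i - z ^ j ∉ primeOf A := by
  have : NeZero q := ⟨hq.out.ne_zero⟩
  intro h
  have hzq : IsPrimitiveRoot z q :=
    IsPrimitiveRoot.of_map_of_injective (f := algebraMap (𝓞 ℚbar) ℚbar) hz
      RingOfIntegers.coe_injective
  have := (primeOf_isPrime A)
  set mk := Ideal.Quotient.mk (primeOf A)
  have hmk : mk z ≠ 1 := by
    intro h1
    have hdvd : (q : 𝓞 ℚbar) ∈ primeOf A := by
      rw [← Ideal.Quotient.eq_zero_iff_mem, map_natCast]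
      have h2 := congrArg mk (hzq.geom_sum_eq_zero hq.out.one_lt)
      simpa [map_sum, h1] using h2
    have := dvd_of_intCast_mem_primeOf hℓ hA (c := q) (by simpa using hdvd)
    exact hℓq ((Nat.prime_dvd_prime_iff_eq hℓ hq.out).mp (by exact_mod_cast this))
  have hord : IsPrimitiveRoot (mk z) q := by
    rw [← orderOf_eq_prime (p := q) (by rw [← map_pow, hzq.pow_eq_one, map_one]) hmk]
    exact IsPrimitiveRoot.orderOf _
  apply hne
  rw [ZMod.natCast_eq_natCast_iff']
  rw [← Ideal.Quotient.eq, map_pow, map_pow, ← pow_mod_orderOf (mk z) i,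
    ← pow_mod_orderOf (mk z) j, ← hord.eq_orderOf] at h
  exact hord.pow_inj (Nat.mod_lt _ hq.out.pos) (Nat.mod_lt _ hq.out.pos) h

/-- The cyclotomic character is unramified outside `q`. -/
theorem cycChar_eq_one_of_mem_inertia (hℓ : ℓ.Prime) (hℓq : ℓ ≠ q) (hA : A.LiesOverPrime ℓ)
    {σ : Γℚ} (hσ : σ ∈ A.inertiaSubgroupIn ℚ) : cycChar q σ = 1 := by
  have : NeZero q := ⟨hq.out.ne_zero⟩
  obtain ⟨z, hz⟩ := exists_primitiveRoot_qbar (q := q)
  let w : 𝓞 ℚbar := ⟨z, hz.isIntegral hq.out.pos⟩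
  refine Units.ext ?_
  by_contra hne
  refine sub_notMem_primeOf hℓ hℓq hA (z := w) hz
    (i := ((cycChar q σ : (ZMod q)ˣ) : ZMod q).val) (j := 1) ?_ ?_
  · rwa [ZMod.natCast_zmod_val, Nat.cast_one]
  · have h := (mem_inertiaSubgroupIn_iff hℓ hA σ).mp hσ w
    rwa [show σ • w = w ^ ((cycChar q σ : (ZMod q)ˣ) : ZMod q).val from
      RingOfIntegers.ext (by push_cast; exact apply_eq_pow_cycChar σ hz.pow_eq_one),
      ← pow_one w, ← pow_mul, one_mul] at h

/-- The cyclotomic character sends a Frobenius at `ℓ` to `ℓ`. -/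
theorem cycChar_frobenius (hℓ : ℓ.Prime) (hℓq : ℓ ≠ q) (hA : A.LiesOverPrime ℓ)
    {σ : Γℚ} (hσ : A.IsFrobeniusAt σ ℓ) : ((cycChar q σ : (ZMod q)ˣ) : ZMod q) = ℓ := by
  have : NeZero q := ⟨hq.out.ne_zero⟩
  obtain ⟨z, hz⟩ := exists_primitiveRoot_qbar (q := q)
  let w : 𝓞 ℚbar := ⟨z, hz.isIntegral hq.out.pos⟩
  by_contra hne
  refine sub_notMem_primeOf hℓ hℓq hA (z := w) hz
    (i := ((cycChar q σ : (ZMod q)ˣ) : ZMod q).val) (j := ℓ) (by rwa [ZMod.natCast_zmod_val]) ?_
  have h := (isFrobeniusAt_iff hℓ hA σ).mp hσ w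
  rwa [show σ • w = w ^ ((cycChar q σ : (ZMod q)ˣ) : ZMod q).val from
    RingOfIntegers.ext (by push_cast; exact apply_eq_pow_cycChar σ hz.pow_eq_one)] at h

end Fermat.CFT
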