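import Fermat.Agent.CFT.Density.Places

/-!
# Inertia elements of finite Galois extensions lift to inertia elements of `ℚ̄`

A lift is corrected over `L` twice: to fix the prime of the place, then to act trivially modulo it.

`exists_mem_inertia_restrict`, used wherever ramification of a finite field is read on the absolute
Galois group (`EC/Unramified`, `FLAT`, `SW`).
-/

set_option autoImplicit false

noncomputable section

open NumberField
open scoped Pointwise

namespace Fermat.CFT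

local notation "ℚbar" => AlgebraicClosure ℚ
local notation "Γℚ" => AlgebraicClosure ℚ ≃ₐ[ℚ] AlgebraicClosure ℚ

variable (L : IntermediateField ℚ ℚbar) [FiniteDimensional ℚ L]

/-- `ℚ̄` is Galois over `L`. -/
instance qbar_isGalois_over : IsGalois L ℚbar := IsGalois.tower_top_of_isGalois ℚ L ℚbar

/-- The action over `L` is linear over the integers of `L`. -/
instance smulComm_qbarInt : SMulCommClass (ℚbar ≃ₐ[L] ℚbar) (𝓞 L) (𝓞 ℚbar) where
  smul_comm σ r x := by
    rw [Algebra.smul_def, Algebra.smul_def, smul_mul',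
      show σ • algebraMap (𝓞 L) (𝓞 ℚbar) r = algebraMap (𝓞 L) (𝓞 ℚbar) r from
        RingOfIntegers.ext (σ.commutes (r : L))]

omit [FiniteDimensional ℚ L] in
/-- The invariants of the algebraic integers over `L` are the integers of `L`. -/
lemma isInvariant_qbarInt : Algebra.IsInvariant (𝓞 L) (𝓞 ℚbar) (ℚbar ≃ₐ[L] ℚbar) := by
  refine ⟨fun b hb => ?_⟩
  obtain ⟨q, hint, hq⟩ := exists_isIntegral_eq_of_fixed (F := L) b
    fun g => congrArg (fun z : 𝓞 ℚbar => (z : ℚbar)) (hb g)
  exact ⟨⟨q, hint⟩, RingOfIntegers.ext hq⟩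

/-- The algebraic integers get the discrete topology. -/
local instance : TopologicalSpace (𝓞 ℚbar) := ⊥
/-- The topology on the algebraic integers is discrete. -/
local instance : DiscreteTopology (𝓞 ℚbar) := ⟨rfl⟩

omit [FiniteDimensional ℚ L] in
/-- The action on algebraic integers, as a discrete space, is continuous. -/
lemma continuousSMul_qbarInt : ContinuousSMul (ℚbar ≃ₐ[L] ℚbar) (𝓞 ℚbar) := by
  refine continuousSMul_iff_stabilizer_isOpen.mpr fun x => ?_
  have := IntermediateField.adjoin.finiteDimensional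
    (Algebra.IsIntegral.isIntegral (R := L) (x : ℚbar))
  refine Subgroup.isOpen_mono ?_
    (IntermediateField.fixingSubgroup_isOpen (IntermediateField.adjoin L {(x : ℚbar)}))
  intro g hg
  exact RingOfIntegers.ext (hg ⟨x, IntermediateField.mem_adjoin_simple_self L (x : ℚbar)⟩)

variable {L} [Normal ℚ L] {A : ValuationSubring ℚbar} {ℓ : ℕ}

omit [FiniteDimensional ℚ L] in
/-- A lift of an inertia element of `L` acts trivially on the integers of `L` modulo the place. -/
lemma smul_sub_mem_of_primeBelow {σ : Γℚ} {g : L ≃ₐ[ℚ] L}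
    (hσ : AlgEquiv.restrictNormalHom L σ = g)
    (hg : ∀ x : 𝓞 L, g • x - x ∈ primeBelow L A) (x : 𝓞 L) :
    σ • algebraMap (𝓞 L) (𝓞 ℚbar) x - algebraMap (𝓞 L) (𝓞 ℚbar) x ∈ primeOf A := by
  have h := hg x
  rw [primeBelow, Ideal.mem_comap, map_sub, ← hσ, algebraMap_restrict_smul] at h
  exact h

omit [FiniteDimensional ℚ ↥L] in
/-- **Lifting inertia**: an inertia element of `L` at the prime below `A` is the restriction of an
inertia element of `A`. -/
theorem exists_mem_inertia_restrict (hℓ : ℓ.Prime) (hA : A.LiesOverPrime ℓ) {g : L ≃ₐ[ℚ] L}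
    (hg : ∀ x : 𝓞 L, g • x - x ∈ primeBelow L A) :
    ∃ σ ∈ A.inertiaSubgroupIn ℚ, AlgEquiv.restrictNormalHom L σ = g := by
  have := isInvariant_qbarInt L
  have := continuousSMul_qbarInt L
  obtain ⟨σ₀, hσ₀⟩ := AlgEquiv.restrictNormalHom_surjective ℚbar g
  have hgQ : ∀ x : 𝓞 L, g • x ∈ primeBelow L A ↔ x ∈ primeBelow L A := fun x =>
    ⟨fun h => by simpa using sub_mem h (hg x), fun h => by simpa using add_mem (hg x) h⟩
  have hunder : (primeOf A).under (𝓞 L) = (σ₀ • primeOf A).under (𝓞 L) := by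
    refine SetLike.ext fun x => ?_
    simp only [Ideal.mem_comap, Ideal.mem_pointwise_smul_iff_inv_smul_mem]
    rw [← algebraMap_restrict_smul L σ₀⁻¹ x, map_inv, hσ₀]
    have h := hgQ (g⁻¹ • x)
    rw [smul_inv_smul] at h
    exact h
  -- move the conjugated prime back by an automorphism over `L`
  obtain ⟨h, hh⟩ := Algebra.IsInvariant.exists_smul_of_under_eq_of_profinite
    (G := ℚbar ≃ₐ[L] ℚbar) (A := 𝓞 L) (σ₀ • primeOf A) (primeOf A) hunder.symm
  set σ₁ : Γℚ := h.restrictScalars ℚ * σ₀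
  have hres : ∀ k : ℚbar ≃ₐ[L] ℚbar, AlgEquiv.restrictNormalHom L (k.restrictScalars ℚ) = 1 :=
    fun k => (restrict_eq_one_iff L _).mpr
      ((IntermediateField.mem_fixingSubgroup_iff L _).mpr fun x hx => k.commutes ⟨x, hx⟩)
  have hσ₁ : AlgEquiv.restrictNormalHom L σ₁ = g := by rw [map_mul, hres, one_mul, hσ₀]
  have hstab : σ₁ • primeOf A = primeOf A := by
    rw [mul_smul]; exact hh.symm
  -- an automorphism over `L` with the same action modulo the prime
  let φ₀ : (𝓞 ℚbar ⧸ primeOf A) ≃+* (𝓞 ℚbar ⧸ primeOf A) :=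
    Ideal.quotientEquiv (primeOf A) (primeOf A)
      (MulSemiringAction.toRingEquiv Γℚ (𝓞 ℚbar) σ₁) hstab.symm
  let φ : (𝓞 ℚbar ⧸ primeOf A) ≃ₐ[𝓞 L ⧸ (primeOf A).under (𝓞 L)] (𝓞 ℚbar ⧸ primeOf A) :=
    AlgEquiv.ofRingEquiv (f := φ₀) fun x => by
      obtain ⟨n, rfl⟩ := Ideal.Quotient.mk_surjective x
      rw [Ideal.Quotient.algebraMap_mk_of_liesOver]
      exact Ideal.Quotient.eq.mpr (smul_sub_mem_of_primeBelow hσ₁ hg n)
  obtain ⟨k, hk⟩ := Ideal.Quotient.stabilizerHom_surjective_of_profinite (G := ℚbar ≃ₐ[L] ℚbar)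
    ((primeOf A).under (𝓞 L)) (primeOf A) φ
  refine ⟨((k.1).restrictScalars ℚ)⁻¹ * σ₁, (mem_inertiaSubgroupIn_iff hℓ hA _).mpr fun x => ?_,
    by rw [map_mul, map_inv, hres, inv_one, one_mul, hσ₁]⟩
  have h1 : Ideal.Quotient.mk (primeOf A) (k.1 • x) = Ideal.Quotient.mk (primeOf A) (σ₁ • x) :=
    DFunLike.congr_fun hk (Ideal.Quotient.mk (primeOf A) x)
  rw [Ideal.Quotient.eq] at h1
  have h2 : (k.1)⁻¹ • (k.1 • x - σ₁ • x) ∈ primeOf A := by
    have h3 := Ideal.smul_mem_pointwise_smul (k.1)⁻¹ _ _ h1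
    rwa [inv_smul_eq_iff.mpr k.2.symm] at h3
  rw [smul_sub, inv_smul_smul] at h2
  rw [mul_smul]
  have h4 := neg_mem h2
  rw [neg_sub] at h4
  exact h4

end Fermat.CFT
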