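import Fermat.Agent.CFT.Density.IdealCount

/-!
# Frobenius elements in finite Galois extensions of `ℚ`, and the Frobenius density theorem

The degree one primes of the fixed field of a cyclic subgroup count the Frobenius elements in that
subgroup (`sum_orderOf_frobPrimes`). As the ideal counts have logarithmic constant `1`, induction on
the divisors of the order gives every division the constant `φ(d) > 0`, so it has infinitely many
primes (`exists_frobenius_generating`).
-/

set_option autoImplicit false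

noncomputable section

open NumberField Filter Asymptotics Ideal
open scoped Pointwise

namespace Fermat.CFT

variable (L : Type*) [Field L] [NumberField L]

variable {L} in
/-- `g • x ≡ x ^ q (mod Q)` for all integral `x`. -/
def IsFrobeniusMod (g : L ≃ₐ[ℚ] L) (Q : Ideal (𝓞 L)) (q : ℕ) : Prop :=
  ∀ x : 𝓞 L, g • x - x ^ q ∈ Q

/-- A nontrivial automorphism moves some algebraic integer. -/
lemma exists_smul_ne {g : L ≃ₐ[ℚ] L} (hg : g ≠ 1) : ∃ x : 𝓞 L, g • x ≠ x := by
  by_contra! h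
  apply hg
  ext y
  obtain ⟨a, b, -, rfl⟩ := IsFractionRing.div_surjective (A := 𝓞 L) y
  have h' : ∀ x : 𝓞 L, g (x : L) = x := fun x => congrArg (fun z : 𝓞 L => (z : L)) (h x)
  simp [map_div₀, h']

open Classical in
/-- A natural number divisible by every prime with nontrivial inertia in `L`. -/
def ramifiedBound : ℕ :=
  ∏ g : {g : L ≃ₐ[ℚ] L // g ≠ 1},
    absNorm (span {g.1 • (exists_smul_ne L g.2).choose - (exists_smul_ne L g.2).choose})

/-- The bound `ramifiedBound L` is not zero. -/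
lemma ramifiedBound_ne_zero : ramifiedBound L ≠ 0 := by
  refine Finset.prod_ne_zero_iff.mpr fun g _ => ?_
  rw [Ne, absNorm_eq_zero_iff, span_singleton_eq_bot, sub_eq_zero]
  exact (exists_smul_ne L g.2).choose_spec

/-- The finite set of primes which may ramify in `L`. -/
def exceptionalPrimes : Finset ℕ := (ramifiedBound L).primeFactors

variable {L}

/-- Inertia at an unexceptional prime is trivial. -/
lemma inertia_eq_one {p : ℕ} (hp : p.Prime) (hgood : p ∉ exceptionalPrimes L) {Q : Ideal (𝓞 L)}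
    (hQ : Q.IsPrime) (hpQ : (p : 𝓞 L) ∈ Q) {g : L ≃ₐ[ℚ] L} (hg : ∀ x : 𝓞 L, g • x - x ∈ Q) :
    g = 1 := by
  classical
  by_contra hne
  refine hgood (Nat.mem_primeFactors.mpr ⟨hp, ?_, ramifiedBound_ne_zero L⟩)
  refine ((prime_dvd_absNorm hp hQ hpQ).trans ?_).trans
    (Finset.dvd_prod_of_mem _ (Finset.mem_univ ⟨g, hne⟩))
  exact absNorm_dvd_absNorm_of_le ((span_singleton_le_iff_mem _).mpr (hg _))

omit [NumberField L] in
/-- A prime containing `p` lies over `(p)`. -/
lemma under_int_eq_span {p : ℕ} (hp : p.Prime) {Q : Ideal (𝓞 L)} (hQ : Q.IsPrime)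
    (hpQ : (p : 𝓞 L) ∈ Q) : Q.under ℤ = span {(p : ℤ)} := by
  have hmax : (span {(p : ℤ)}).IsMaximal :=
    PrincipalIdealRing.isMaximal_of_irreducible (Nat.prime_iff_prime_int.mp hp).irreducible
  refine (hmax.eq_of_le ?_ ?_).symm
  · exact (hQ.under ℤ).ne_top
  · rw [span_singleton_le_iff_mem, Ideal.mem_comap]
    simpa using hpQ

/-- The integral closure of `L`'s fixed field computes the invariants of the subgroup. -/
lemma isInvariant_fixedField (H : Subgroup (L ≃ₐ[ℚ] L)) :
    Algebra.IsInvariant (𝓞 (IntermediateField.fixedField H)) (𝓞 L) H := by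
  refine ⟨fun b hb => ?_⟩
  have hmem : (b : L) ∈ IntermediateField.fixedField H := fun g =>
    congrArg (fun z : 𝓞 L => (z : L)) (hb g)
  have hint : IsIntegral ℤ (⟨(b : L), hmem⟩ : IntermediateField.fixedField H) :=
    (isIntegral_algebraMap_iff (R := ℤ)
      (algebraMap (IntermediateField.fixedField H) L).injective).mp b.isIntegral_coe
  exact ⟨⟨_, hint⟩, RingOfIntegers.ext rfl⟩

/-- The action of `H` is linear over the integers of its fixed field. -/
instance smulComm_fixedField (H : Subgroup (L ≃ₐ[ℚ] L)) :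
    SMulCommClass H (𝓞 (IntermediateField.fixedField H)) (𝓞 L) where
  smul_comm g r x := by
    apply RingOfIntegers.ext
    change g.1 (((r : IntermediateField.fixedField H) : L) * (x : L)) =
      ((r : IntermediateField.fixedField H) : L) * g.1 (x : L)
    rw [map_mul]
    exact congrArg (· * g.1 (x : L)) ((r : IntermediateField.fixedField H).2 g)

/-- An algebraic integer fixed by the Galois group is the image of one of the base field. -/
lemma exists_isIntegral_eq_of_fixed {F E : Type*} [Field F] [Field E] [Algebra F E] [IsGalois F E]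
    (b : 𝓞 E) (hb : ∀ g : E ≃ₐ[F] E, g (b : E) = b) :
    ∃ q : F, IsIntegral ℤ q ∧ algebraMap F E q = b := by
  have hmem : (b : E) ∈ (⊥ : IntermediateField F E) := by
    rw [← InfiniteGalois.fixedField_bot, IntermediateField.mem_fixedField_iff]
    exact fun g _ => hb g
  obtain ⟨q, hq⟩ := IntermediateField.mem_bot.mp hmem
  refine ⟨q, (isIntegral_algebraMap_iff (R := ℤ) (algebraMap F E).injective).mp ?_, hq⟩
  rw [hq]; exact b.isIntegral_coe

/-- Frobenius elements exist at every prime. -/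
lemma exists_isFrobeniusMod [IsGalois ℚ L] {p : ℕ} (hp : p.Prime) {Q : Ideal (𝓞 L)}
    (hQ : Q.IsPrime) (hpQ : (p : 𝓞 L) ∈ Q) : ∃ g, IsFrobeniusMod g Q p := by
  have : Finite (𝓞 L ⧸ Q) := finiteQuotientOfFreeOfNeBot Q (ne_bot_of_natCast_mem hp hpQ)
  obtain ⟨g, hg⟩ := IsArithFrobAt.exists_of_isInvariant ℤ (L ≃ₐ[ℚ] L) Q
  refine ⟨g, fun x => ?_⟩
  have h := hg x
  rwa [under_int_eq_span hp hQ hpQ, Int.card_ideal_quot] at h

/-- The `k`-th power of a Frobenius is congruent to the `p ^ k`-th power. -/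
lemma IsFrobeniusMod.pow {p : ℕ} {Q : Ideal (𝓞 L)} {g : L ≃ₐ[ℚ] L}
    (hg : IsFrobeniusMod g Q p) : ∀ k : ℕ, IsFrobeniusMod (g ^ k) Q (p ^ k)
  | 0 => fun x => by simp
  | k + 1 => fun x => by
    have h1 := hg.pow k (g • x)
    have h2 : (g • x) ^ p ^ k - (x ^ p) ^ p ^ k ∈ Q :=
      Q.mem_of_dvd (sub_dvd_pow_sub_pow _ _ _) (hg x)
    have h3 := Q.add_mem h1 h2
    rwa [sub_add_sub_cancel, smul_smul, ← pow_succ, ← pow_mul, ← pow_succ'] at h3

/-- The powers of a Frobenius at `Q` exhaust the stabiliser of `Q` up to inertia. -/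
lemma IsFrobeniusMod.exists_pow_mul_inertia {p : ℕ} (hp : p.Prime) {Q : Ideal (𝓞 L)}
    (hQ : Q.IsPrime) (hpQ : (p : 𝓞 L) ∈ Q) {σ : L ≃ₐ[ℚ] L} (hσ : IsFrobeniusMod σ Q p)
    {g : L ≃ₐ[ℚ] L} (hg : g • Q = Q) :
    ∃ k : ℕ, ∀ y : 𝓞 L, (g * (σ ^ k)⁻¹) • y - y ∈ Q := by
  have : Fact p.Prime := ⟨hp⟩
  have hmax : Q.IsMaximal := hQ.isMaximal (ne_bot_of_natCast_mem hp hpQ)
  let := Ideal.Quotient.field Q
  have : Finite (𝓞 L ⧸ Q) := finiteQuotientOfFreeOfNeBot Q (ne_bot_of_natCast_mem hp hpQ)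
  have hchar : CharP (𝓞 L ⧸ Q) p :=
    (CharP.charP_iff_prime_eq_zero hp).mpr (by
      rw [← map_natCast (Ideal.Quotient.mk Q), Ideal.Quotient.eq_zero_iff_mem]; exact hpQ)
  let : Algebra (ZMod p) (𝓞 L ⧸ Q) := ZMod.algebra _ p
  let φ : (𝓞 L ⧸ Q) →+* (𝓞 L ⧸ Q) :=
    Ideal.quotientMap Q (MulSemiringAction.toRingHom (L ≃ₐ[ℚ] L) (𝓞 L) g) (fun x hx => by
      rw [Ideal.mem_comap]
      rw [← hg]
      exact Ideal.smul_mem_pointwise_smul g x Q hx)
  let φ' : (𝓞 L ⧸ Q) →ₐ[ZMod p] (𝓞 L ⧸ Q) :=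
    { φ with commutes' := fun r => RingHom.congr_fun (RingHom.ext_zmod (φ.comp (algebraMap _ _))
        (algebraMap _ _)) r }
  obtain ⟨k, hk⟩ := (FiniteField.bijective_frobeniusAlgEquivOfAlgebraic_pow (ZMod p) (𝓞 L ⧸ Q)).2
    (AlgEquiv.ofBijective φ' (φ'.bijective))
  have h1 : IsFrobeniusMod g Q (p ^ (k : ℕ)) := fun x => by
    have := DFunLike.congr_fun hk (Ideal.Quotient.mk Q x)
    rw [← Ideal.Quotient.eq_zero_iff_mem, map_sub, map_pow, sub_eq_zero]
    rw [AlgEquiv.coe_ofBijective] at this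
    simpa [φ', φ, FiniteField.coe_frobeniusAlgEquivOfAlgebraic_iterate, AlgEquiv.coe_pow,
      ZMod.card] using this.symm
  refine ⟨k, fun y => ?_⟩
  have := Q.sub_mem (h1 ((σ ^ (k : ℕ))⁻¹ • y)) (hσ.pow k ((σ ^ (k : ℕ))⁻¹ • y))
  simpa [mul_smul] using this

/-- At an unexceptional prime the stabiliser of `Q` lies in the group generated by a Frobenius. -/
lemma IsFrobeniusMod.mem_zpowers {p : ℕ} (hp : p.Prime) (hgood : p ∉ exceptionalPrimes L)
    {Q : Ideal (𝓞 L)} (hQ : Q.IsPrime) (hpQ : (p : 𝓞 L) ∈ Q) {σ : L ≃ₐ[ℚ] L}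
    (hσ : IsFrobeniusMod σ Q p) {g : L ≃ₐ[ℚ] L} (hg : g • Q = Q) :
    g ∈ Subgroup.zpowers σ := by
  obtain ⟨k, hk⟩ := hσ.exists_pow_mul_inertia hp hQ hpQ hg
  rw [mul_inv_eq_one.mp (inertia_eq_one hp hgood hQ hpQ hk)]
  exact Subgroup.npow_mem_zpowers σ _

/-! ### Counting degree one primes in fixed fields -/

variable (L) in
/-- A choice of Frobenius at `Q` for the prime number `q`, or `1`. -/
def frobMod (Q : Ideal (𝓞 L)) (q : ℕ) : L ≃ₐ[ℚ] L :=
  open Classical in if h : ∃ g, IsFrobeniusMod g Q q then h.choose else 1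

/-- `frobMod` is a Frobenius. -/
lemma isFrobeniusMod_frobMod [IsGalois ℚ L] {p : ℕ} (hp : p.Prime) {Q : Ideal (𝓞 L)}
    (hQ : Q.IsPrime) (hpQ : (p : 𝓞 L) ∈ Q) : IsFrobeniusMod (frobMod L Q p) Q p := by
  rw [frobMod, dif_pos (exists_isFrobeniusMod hp hQ hpQ)]
  exact (exists_isFrobeniusMod hp hQ hpQ).choose_spec

/-- A Frobenius fixes its prime. -/
lemma IsFrobeniusMod.smul_eq {p : ℕ} {Q : Ideal (𝓞 L)} (hQ : Q.IsPrime) {σ : L ≃ₐ[ℚ] L}
    (hσ : IsFrobeniusMod σ Q p) : σ • Q = Q := by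
  have key : ∀ x : 𝓞 L, σ • x ∈ Q ↔ x ^ p ∈ Q := fun x =>
    ⟨fun h => by simpa using Q.sub_mem h (hσ x), fun h => by simpa using Q.add_mem (hσ x) h⟩
  rcases Nat.eq_zero_or_pos p with rfl | hp
  · exact absurd (Ideal.eq_top_iff_one Q |>.mpr (by
      have h := hσ (σ⁻¹ • (0 : 𝓞 L)); simpa using h)) hQ.ne_top
  ext y
  rw [Ideal.mem_pointwise_smul_iff_inv_smul_mem, ← hQ.pow_mem_iff_mem p hp, ← key, smul_inv_smul]

/-- At an unexceptional prime the decomposition group is generated by a Frobenius. -/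
lemma stabilizer_eq_zpowers {p : ℕ} (hp : p.Prime) (hgood : p ∉ exceptionalPrimes L)
    {Q : Ideal (𝓞 L)} (hQ : Q.IsPrime) (hpQ : (p : 𝓞 L) ∈ Q) {σ : L ≃ₐ[ℚ] L}
    (hσ : IsFrobeniusMod σ Q p) :
    MulAction.stabilizer (L ≃ₐ[ℚ] L) Q = Subgroup.zpowers σ :=
  le_antisymm (fun _ hg => hσ.mem_zpowers hp hgood hQ hpQ hg)
    (Subgroup.zpowers_le.mpr (hσ.smul_eq hQ))

/-- If `Q` contains `p`, so does the prime below it in a fixed field. -/
lemma natCast_mem_under_fixedField (H : Subgroup (L ≃ₐ[ℚ] L)) {p : ℕ} {Q : Ideal (𝓞 L)}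
    (hpQ : (p : 𝓞 L) ∈ Q) :
    (p : 𝓞 (IntermediateField.fixedField H)) ∈ Q.under (𝓞 (IntermediateField.fixedField H)) := by
  rw [Ideal.mem_comap, map_natCast]; exact hpQ

/-- The prime below one with Frobenius in `H` has norm `p` in the fixed field of `H`. -/
lemma absNorm_under_eq_of_mem (H : Subgroup (L ≃ₐ[ℚ] L)) {p : ℕ} (hp : p.Prime)
    {Q : Ideal (𝓞 L)} (hQ : Q.IsPrime) (hpQ : (p : 𝓞 L) ∈ Q) {σ : L ≃ₐ[ℚ] L}
    (hσ : IsFrobeniusMod σ Q p) (hσH : σ ∈ H) :
    absNorm (Q.under (𝓞 (IntermediateField.fixedField H))) = p := by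
  set P := Q.under (𝓞 (IntermediateField.fixedField H)) with hP
  have hpP := natCast_mem_under_fixedField H hpQ
  have hPprime : P.IsPrime := hQ.under _
  have : P.IsMaximal := hPprime.isMaximal (ne_bot_of_natCast_mem hp hpP)
  let := Ideal.Quotient.field P
  have : Finite (𝓞 (IntermediateField.fixedField H) ⧸ P) :=
    finiteQuotientOfFreeOfNeBot P (ne_bot_of_natCast_mem hp hpP)
  have : Fintype (𝓞 (IntermediateField.fixedField H) ⧸ P) := Fintype.ofFinite _
  refine le_antisymm ?_ (Nat.le_of_dvd ?_ (prime_dvd_absNorm hp hPprime hpP))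
  · rw [absNorm_apply, Submodule.cardQuot_apply, Nat.card_eq_fintype_card]
    calc Fintype.card (𝓞 (IntermediateField.fixedField H) ⧸ P)
        ≤ (Polynomial.X ^ p - Polynomial.X :
            Polynomial (𝓞 (IntermediateField.fixedField H) ⧸ P)).natDegree := by
          classical
          refine Polynomial.card_le_degree_of_subset_roots
            (Z := Finset.univ) fun a _ => ?_
          rw [Polynomial.mem_roots (FiniteField.X_pow_card_sub_X_ne_zero _ hp.one_lt)]
          obtain ⟨x, rfl⟩ := Ideal.Quotient.mk_surjective a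
          suffices x - x ^ p ∈ P by
            rw [← Ideal.Quotient.eq_zero_iff_mem, map_sub, map_pow, sub_eq_zero] at this
            simp [← this]
          have hfix : σ • algebraMap _ (𝓞 L) x = algebraMap _ (𝓞 L) x :=
            RingOfIntegers.ext ((x : IntermediateField.fixedField H).2 ⟨σ, hσH⟩)
          have := hσ (algebraMap _ (𝓞 L) x)
          rw [hfix] at this
          rw [hP, Ideal.mem_comap, map_sub, map_pow]
          exact this
      _ = p := FiniteField.X_pow_card_sub_X_natDegree_eq _ hp.one_lt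
  · exact Nat.pos_of_ne_zero fun h =>
      ne_bot_of_natCast_mem hp hpP (absNorm_eq_zero_iff.mp h)

/-- At an unexceptional prime, if the prime below in the fixed field of `H` has norm `p`, the
Frobenius lies in `H`. -/
lemma frobMod_mem_of_absNorm_under_eq [IsGalois ℚ L] (H : Subgroup (L ≃ₐ[ℚ] L)) {p : ℕ}
    (hp : p.Prime) (hgood : p ∉ exceptionalPrimes L) {Q : Ideal (𝓞 L)} (hQ : Q.IsPrime)
    (hpQ : (p : 𝓞 L) ∈ Q) (hN : absNorm (Q.under (𝓞 (IntermediateField.fixedField H))) = p) :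
    frobMod L Q p ∈ H := by
  have := isInvariant_fixedField H
  have : Finite (𝓞 L ⧸ Q) := finiteQuotientOfFreeOfNeBot Q (ne_bot_of_natCast_mem hp hpQ)
  obtain ⟨τ, hτ⟩ := IsArithFrobAt.exists_of_isInvariant (𝓞 (IntermediateField.fixedField H)) H Q
  have hτ' : IsFrobeniusMod τ.1 Q p := fun x => by
    have h := hτ x
    rwa [← Submodule.cardQuot_apply, ← absNorm_apply, hN] at h
  exact (Subgroup.zpowers_le.mpr τ.2)
    (hτ'.mem_zpowers hp hgood hQ hpQ ((isFrobeniusMod_frobMod hp hQ hpQ).smul_eq hQ))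

open Classical in
variable (L) in
/-- The primes of `L` over `p` whose Frobenius lies in `s`. -/
def frobPrimes {p : ℕ} (hp : p.Prime) (s : Set (L ≃ₐ[ℚ] L)) : Finset (Ideal (𝓞 L)) :=
  (primesAboveNat L hp).filter fun Q => frobMod L Q p ∈ s

/-- Membership in `frobPrimes`. -/
lemma mem_frobPrimes {p : ℕ} (hp : p.Prime) {s : Set (L ≃ₐ[ℚ] L)} {Q : Ideal (𝓞 L)} :
    Q ∈ frobPrimes L hp s ↔ (Q.IsPrime ∧ (p : 𝓞 L) ∈ Q) ∧ frobMod L Q p ∈ s := by
  classical
  simp [frobPrimes, mem_primesAboveNat]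

/-- At an unexceptional `p` the orders of the Frobenius elements at the primes over `p` with
Frobenius in `H` add up to `#H` times the number of ideals of norm `p` of the fixed field of `H`. -/
theorem sum_orderOf_frobPrimes [IsGalois ℚ L] (H : Subgroup (L ≃ₐ[ℚ] L)) {p : ℕ}
    (hp : p.Prime) (hgood : p ∉ exceptionalPrimes L) :
    ∑ Q ∈ frobPrimes L hp H, orderOf (frobMod L Q p) =
      Nat.card H * idealCount (IntermediateField.fixedField H) p := by
  classical
  have := isInvariant_fixedField H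
  set B := (primesAboveNat (IntermediateField.fixedField H) hp).filter fun P => absNorm P = p
    with hB
  have hBcard : idealCount (IntermediateField.fixedField H) p = B.card := by
    rw [idealCount, ← Nat.card_eq_finsetCard]
    refine Nat.card_congr (Equiv.subtypeEquivRight fun P => ?_)
    rw [hB, Finset.mem_filter, mem_primesAboveNat]
    exact ⟨fun h => ⟨⟨isPrime_of_irreducible_absNorm (h.symm ▸ hp),
      natCast_mem_of_absNorm_dvd h.dvd⟩, h⟩, fun h => h.2⟩
  rw [← Finset.sum_fiberwise_of_maps_to (g := fun Q : Ideal (𝓞 L) =>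
    Q.under (𝓞 (IntermediateField.fixedField H))) (t := B) (fun Q hQ => ?_), hBcard, mul_comm,
    ← smul_eq_mul, ← Finset.sum_const]
  · refine Finset.sum_congr rfl fun P hP => ?_
    obtain ⟨hP1, hPN⟩ := Finset.mem_filter.mp hP
    obtain ⟨hPprime, -⟩ := (mem_primesAboveNat hp).mp hP1
    -- the primes over a prime `P` of degree one form one orbit of `H`
    set F := (frobPrimes L hp H).filter fun Q =>
      Q.under (𝓞 (IntermediateField.fixedField H)) = P with hF
    have hmemF : ∀ Q, Q ∈ F ↔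
        Q.IsPrime ∧ Q.under (𝓞 (IntermediateField.fixedField H)) = P := by
      intro Q
      rw [hF, Finset.mem_filter, mem_frobPrimes]
      refine ⟨fun h => ⟨h.1.1.1, h.2⟩, fun ⟨h1, h2⟩ => ?_⟩
      have hpQ : (p : 𝓞 L) ∈ Q := by
        have : (p : 𝓞 (IntermediateField.fixedField H)) ∈
            Q.under (𝓞 (IntermediateField.fixedField H)) := by
          rw [h2]; exact natCast_mem_of_absNorm_dvd hPN.dvd
        rw [Ideal.mem_comap, map_natCast] at this; exact this
      exact ⟨⟨⟨h1, hpQ⟩, frobMod_mem_of_absNorm_under_eq H hp hgood h1 hpQ (h2 ▸ hPN)⟩, h2⟩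
    obtain ⟨⟨Q₀, hQ₀, hQ₀P⟩⟩ := Ideal.nonempty_primesOver (S := 𝓞 L) P
    have hne : F.Nonempty := ⟨Q₀, (hmemF Q₀).mpr ⟨hQ₀, hQ₀P.over.symm⟩⟩
    have key : ∀ Q ∈ F, F.card * orderOf (frobMod L Q p) = Nat.card H := by
      intro Q hQ
      obtain ⟨hQprime, hQu⟩ := (hmemF Q).mp hQ
      obtain ⟨⟨-, hpQ⟩, hfH⟩ := (mem_frobPrimes hp).mp (Finset.mem_filter.mp (hF ▸ hQ)).1
      have horbit : MulAction.orbit H Q = (F : Set (Ideal (𝓞 L))) := by
        ext R
        rw [Finset.mem_coe, hmemF]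
        constructor
        · rintro ⟨h, rfl⟩
          refine ⟨inferInstance, hQu ▸ ?_⟩
          change (h • Q).under _ = _
          ext x
          rw [Ideal.mem_comap, Ideal.mem_comap]
          change algebraMap _ (𝓞 L) x ∈ h.1 • Q ↔ _
          rw [Ideal.mem_pointwise_smul_iff_inv_smul_mem,
            show h.1⁻¹ • algebraMap _ (𝓞 L) x = algebraMap _ (𝓞 L) x from smul_algebraMap h⁻¹ x]
        · rintro ⟨hR, hRu⟩
          obtain ⟨h, rfl⟩ := Algebra.IsInvariant.exists_smul_of_under_eq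
            (𝓞 (IntermediateField.fixedField H)) (𝓞 L) H Q R (hQu.trans hRu.symm)
          exact ⟨h, rfl⟩
      have hstab : MulAction.stabilizer H Q = (Subgroup.zpowers (frobMod L Q p)).subgroupOf H := by
        rw [← stabilizer_eq_zpowers hp hgood hQprime hpQ (isFrobeniusMod_frobMod hp hQprime hpQ)]
        rfl
      rw [← Subgroup.index_mul_card (MulAction.stabilizer H Q), MulAction.index_stabilizer, horbit,
        Set.ncard_coe_finset, hstab,
        Nat.card_congr (Subgroup.subgroupOfEquivOfLe (Subgroup.zpowers_le.mpr hfH)).toEquiv,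
        Nat.card_zpowers]
    refine Nat.eq_of_mul_eq_mul_left hne.card_pos ?_
    rw [Finset.mul_sum, Finset.sum_congr rfl key, Finset.sum_const, smul_eq_mul]
  · obtain ⟨⟨hQprime, hpQ⟩, hfH⟩ := (mem_frobPrimes hp).mp hQ
    exact Finset.mem_filter.mpr ⟨(mem_primesAboveNat hp).mpr
      ⟨hQprime.under _, natCast_mem_under_fixedField H hpQ⟩,
      absNorm_under_eq_of_mem H hp hQprime hpQ (isFrobeniusMod_frobMod hp hQprime hpQ) hfH⟩

/-! ### The Frobenius density theorem -/

variable (L) in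
/-- The weighted number of primes over `p` with Frobenius in `⟨σ⟩` of order exactly `d`. -/
def divisionWeight (σ : L ≃ₐ[ℚ] L) (d : ℕ) (p : Nat.Primes) : ℝ :=
  d * ((frobPrimes L p.2 {g | g ∈ Subgroup.zpowers σ ∧ orderOf g = d}).card : ℝ)

/-- The weights are bounded independently of the prime. -/
lemma abs_divisionWeight_le (σ : L ≃ₐ[ℚ] L) (d : ℕ) (p : Nat.Primes) :
    |divisionWeight L σ d p| ≤ d * Module.finrank ℚ L := by
  classical
  rw [divisionWeight, abs_of_nonneg (by positivity)]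
  refine mul_le_mul_of_nonneg_left (Nat.cast_le.mpr ?_) (Nat.cast_nonneg d)
  exact (Finset.card_le_card fun Q hQ => (mem_primesAboveNat p.2).mpr
    ((mem_frobPrimes p.2).mp hQ).1).trans (card_primesAboveNat_le L p.2)

/-- The subgroup of order `d` of a cyclic group consists of its members of order dividing `d`. -/
lemma mem_zpowers_pow_div_iff {G : Type*} [Group G] [Finite G] {σ g : G} {d : ℕ}
    (hd : d ∣ orderOf σ) :
    g ∈ Subgroup.zpowers (σ ^ (orderOf σ / d)) ↔ g ∈ Subgroup.zpowers σ ∧ orderOf g ∣ d := by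
  obtain ⟨m, hm⟩ := hd
  have hd0 : 0 < d := Nat.pos_of_ne_zero fun h => (orderOf_pos σ).ne' (by simp [hm, h])
  rw [hm, Nat.mul_div_cancel_left m hd0, ← mem_powers_iff_mem_zpowers,
    ← mem_powers_iff_mem_zpowers]
  constructor
  · rintro ⟨i, rfl⟩
    refine ⟨⟨m * i, (pow_mul σ m i)⟩, orderOf_dvd_of_pow_eq_one ?_⟩
    change ((σ ^ m) ^ i) ^ d = 1
    rw [← pow_mul, ← pow_mul, show m * (i * d) = (d * m) * i by ring, ← hm, pow_mul,
      pow_orderOf_eq_one, one_pow]
  · rintro ⟨⟨i, rfl⟩, h⟩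
    have h' : (σ ^ i) ^ d = 1 := orderOf_dvd_iff_pow_eq_one.mp h
    rw [← pow_mul, ← orderOf_dvd_iff_pow_eq_one, hm, mul_comm i d] at h'
    obtain ⟨j, rfl⟩ := (Nat.mul_dvd_mul_iff_left hd0).mp h'
    exact ⟨j, (pow_mul σ m j).symm⟩

/-- At a good prime the division weights of the divisors of `d` sum to `d` times the number of
degree one primes of the corresponding fixed field. -/
lemma sum_divisors_divisionWeight [IsGalois ℚ L] (σ : L ≃ₐ[ℚ] L) {d : ℕ} (hd : d ∣ orderOf σ)
    (p : Nat.Primes) (hgood : (p : ℕ) ∉ exceptionalPrimes L) :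
    ∑ e ∈ d.divisors, divisionWeight L σ e p =
      d * (idealCount (IntermediateField.fixedField (Subgroup.zpowers (σ ^ (orderOf σ / d)))) p : ℝ)
      := by
  classical
  have hcard : Nat.card (Subgroup.zpowers (σ ^ (orderOf σ / d))) = d := by
    rw [Nat.card_zpowers, orderOf_pow_orderOf_div (orderOf_pos σ).ne' hd]
  have hd0 : d ≠ 0 := fun h => (orderOf_pos σ).ne' (by simpa [h] using hd)
  have h := sum_orderOf_frobPrimes (Subgroup.zpowers (σ ^ (orderOf σ / d))) p.2 hgood
  rw [hcard] at h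
  rw [show (d : ℝ) * _ = ((d * idealCount (IntermediateField.fixedField
    (Subgroup.zpowers (σ ^ (orderOf σ / d)))) p : ℕ) : ℝ) from (Nat.cast_mul _ _).symm, ← h,
    ← Finset.sum_fiberwise_of_maps_to (g := fun Q => orderOf (frobMod L Q p))
      (t := d.divisors) (fun Q hQ => ?_), Nat.cast_sum]
  · refine Finset.sum_congr rfl fun e he => ?_
    have hed := (Nat.mem_divisors.mp he).1
    rw [Finset.sum_congr rfl (g := fun _ => e) fun Q hQ => (Finset.mem_filter.mp hQ).2,
      Finset.sum_const, smul_eq_mul, Nat.cast_mul, mul_comm, divisionWeight]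
    congr 3
    ext Q
    simp only [mem_frobPrimes, Finset.mem_filter, SetLike.mem_coe,
      mem_zpowers_pow_div_iff hd, Set.mem_ofPred_eq]
    exact ⟨fun ⟨h1, h2, h3⟩ => ⟨⟨h1, h2, h3 ▸ hed⟩, h3⟩, fun ⟨⟨h1, h2, _⟩, h3⟩ => ⟨h1, h2, h3⟩⟩
  · rw [mem_frobPrimes, SetLike.mem_coe, mem_zpowers_pow_div_iff hd] at hQ
    exact Nat.mem_divisors.mpr ⟨hQ.2.2, hd0⟩

/-- Frobenius density theorem, logarithmic form: the primes with Frobenius generating the subgroup
of order `d` of `⟨σ⟩` have constant `φ(d)`. -/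
theorem isLogAsymp_divisionWeight [IsGalois ℚ L] (σ : L ≃ₐ[ℚ] L) {d : ℕ} (hd : d ∣ orderOf σ) :
    IsLogAsymp (divisionWeight L σ d) (Nat.totient d : ℝ) := by
  classical
  induction d using Nat.strong_induction_on with
  | _ d ih =>
    have hd0 : d ≠ 0 := fun h => (orderOf_pos σ).ne' (by simpa [h] using hd)
    set K := IntermediateField.fixedField (Subgroup.zpowers (σ ^ (orderOf σ / d)))
    have h1 := ((isLogAsymp_idealCount K).const_mul (d : ℝ)).sub
      (IsLogAsymp.finset_sum d.properDivisors (divisionWeight L σ) (fun e => (Nat.totient e : ℝ))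
        fun e he => ih e (Nat.mem_properDivisors.mp he).2
          ((Nat.mem_properDivisors.mp he).1.trans hd))
    have h2 : ((d : ℝ) * 1 - ∑ e ∈ d.properDivisors, (Nat.totient e : ℝ)) = Nat.totient d := by
      have := congrArg (fun k : ℕ => (k : ℝ)) (Nat.sum_totient d)
      simp only [Nat.cast_sum] at this
      rw [← Nat.insert_self_properDivisors hd0,
        Finset.sum_insert Nat.self_notMem_properDivisors] at this
      linarith
    rw [h2] at h1
    refine h1.congr_finite (abs_divisionWeight_le σ d) ?_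
    refine ((exceptionalPrimes L).finite_toSet.preimage
      Nat.Primes.coe_nat_injective.injOn).subset fun p hp => ?_
    by_contra hgood
    apply hp
    show _ - _ = _
    rw [← sum_divisors_divisionWeight σ hd p hgood, ← Nat.insert_self_properDivisors hd0,
      Finset.sum_insert Nat.self_notMem_properDivisors]
    ring

/-- Frobenius density theorem: every division contains Frobenius elements of infinitely many
primes. -/
theorem exists_frobenius_generating [IsGalois ℚ L] (σ : L ≃ₐ[ℚ] L) (T : Finset ℕ) :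
    ∃ p : ℕ, p.Prime ∧ p ∉ T ∧ p ∉ exceptionalPrimes L ∧
      ∃ (Q : Ideal (𝓞 L)) (g : L ≃ₐ[ℚ] L), Q.IsPrime ∧ (p : 𝓞 L) ∈ Q ∧ IsFrobeniusMod g Q p ∧
        Subgroup.zpowers g = Subgroup.zpowers σ := by
  classical
  by_contra! hcon
  have h := isLogAsymp_divisionWeight σ (dvd_refl (orderOf σ))
  have hfin : {p : Nat.Primes | divisionWeight L σ (orderOf σ) p ≠ 0}.Finite := by
    refine ((T ∪ exceptionalPrimes L).finite_toSet.preimage
      Nat.Primes.coe_nat_injective.injOn).subset fun p hp => ?_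
    by_contra hT
    simp only [Set.mem_preimage, Finset.coe_union, Set.mem_union, Finset.mem_coe, not_or] at hT
    apply hp
    change (orderOf σ : ℝ) * _ = 0
    rw [Finset.card_eq_zero.mpr, Nat.cast_zero, mul_zero]
    refine Finset.eq_empty_of_forall_notMem fun Q hQ => ?_
    obtain ⟨⟨hQp, hpQ⟩, hg1, hg2⟩ := (mem_frobPrimes p.2).mp hQ
    refine hcon p p.2 hT.1 hT.2 Q _ hQp hpQ (isFrobeniusMod_frobMod p.2 hQp hpQ)
      (Subgroup.eq_of_le_of_card_ge (Subgroup.zpowers_le.mpr hg1) ?_)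
    rw [Nat.card_zpowers, Nat.card_zpowers, hg2]
  have := h.unique (IsLogAsymp.of_finite_support (abs_divisionWeight_le σ _) hfin)
  exact (Nat.totient_pos.mpr (orderOf_pos σ)).ne' (by exact_mod_cast this)

end Fermat.CFT
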