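import Mathlib

/-!
# Counting ideals of a number field by norm, and the logarithm of the Dedekind zeta function

`isLogAsymp_idealCount`: `∑ a_K(p) p^(-s) = log (1/(s-1)) + O(1)`. This is the analytic input of the
density theorems (`Density/Galois`, `DS/Cheb`).
-/

set_option autoImplicit false

noncomputable section

open NumberField Filter Topology Asymptotics Ideal

namespace Fermat.CFT

variable (K : Type*) [Field K] [NumberField K]

/-- The number of integral ideals of norm `n`. -/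
def idealCount (n : ℕ) : ℕ := Nat.card {I : Ideal (𝓞 K) // absNorm I = n}

/-- One ideal has norm `1`. -/
lemma idealCount_one : idealCount K 1 = 1 := by
  unfold idealCount
  simp only [absNorm_eq_one_iff]
  exact Nat.card_unique

variable {K}

/-- An ideal contains the multiples of its norm. -/
lemma natCast_mem_of_absNorm_dvd {I : Ideal (𝓞 K)} {n : ℕ} (h : absNorm I ∣ n) :
    (n : 𝓞 K) ∈ I := by
  obtain ⟨c, rfl⟩ := h
  rw [Nat.cast_mul]
  exact I.mul_mem_right _ (absNorm_mem I)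

/-- The norm of the ideal generated by a natural number. -/
lemma absNorm_span_natCast (m : ℕ) :
    absNorm (span {(m : 𝓞 K)}) = m ^ Module.finrank ℚ K := by
  rw [absNorm_span_singleton, show (m : 𝓞 K) = algebraMap ℤ (𝓞 K) (m : ℤ) by simp,
    Algebra.norm_algebraMap, Int.natAbs_pow, Int.natAbs_natCast, NumberField.RingOfIntegers.rank]

/-- The part above `m` of an ideal of norm `m * n`, with `m`, `n` coprime, has norm dividing `m`. -/
lemma absNorm_sup_span_dvd {I : Ideal (𝓞 K)} {m n : ℕ} (hmn : m.Coprime n)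
    (hI : absNorm I = m * n) : absNorm (I ⊔ span {(m : 𝓞 K)}) ∣ m := by
  have h1 : absNorm (I ⊔ span {(m : 𝓞 K)}) ∣ m * n := hI ▸ absNorm_dvd_absNorm_of_le le_sup_left
  have h2 : absNorm (I ⊔ span {(m : 𝓞 K)}) ∣ m ^ Module.finrank ℚ K :=
    absNorm_span_natCast (K := K) m ▸ absNorm_dvd_absNorm_of_le le_sup_right
  exact ((Nat.Coprime.pow_left _ hmn).coprime_dvd_left h2).dvd_of_dvd_mul_right h1

omit [NumberField K] in
/-- Coprime natural numbers generate the unit ideal. -/
lemma span_sup_span_eq_top {m n : ℕ} (hmn : m.Coprime n) :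
    span {(m : 𝓞 K)} ⊔ span {(n : 𝓞 K)} = ⊤ := by
  rw [Ideal.eq_top_iff_one, Ideal.mem_span_singleton_sup]
  have h : IsCoprime (m : ℤ) (n : ℤ) := Int.isCoprime_iff_gcd_eq_one.mpr (by simpa using hmn)
  obtain ⟨u, v, huv⟩ := h
  refine ⟨(u : 𝓞 K), (v : 𝓞 K) * n, Ideal.mem_span_singleton'.mpr ⟨_, rfl⟩, ?_⟩
  have := congrArg (fun z : ℤ => (z : 𝓞 K)) huv
  simpa using this

/-- An ideal whose norm divides `m n`, with `m`, `n` coprime, is the product of its parts above
`m` and `n`. -/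
lemma sup_span_mul_sup_span {I : Ideal (𝓞 K)} {m n : ℕ} (hmn : m.Coprime n)
    (hI : absNorm I ∣ m * n) :
    (I ⊔ span {(m : 𝓞 K)}) * (I ⊔ span {(n : 𝓞 K)}) = I := by
  apply le_antisymm
  · rw [Ideal.sup_mul]
    refine sup_le Ideal.mul_le_left ?_
    rw [Ideal.mul_sup]
    refine sup_le Ideal.mul_le_right ?_
    rw [span_singleton_mul_span_singleton, span_singleton_le_iff_mem, ← Nat.cast_mul]
    exact natCast_mem_of_absNorm_dvd hI
  · calc I = I * (span {(m : 𝓞 K)} ⊔ span {(n : 𝓞 K)}) := by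
          rw [span_sup_span_eq_top hmn, mul_top]
      _ ≤ _ := by
          rw [Ideal.mul_sup]
          refine sup_le ?_ ?_
          · rw [mul_comm]; exact mul_mono le_sup_right le_sup_left
          · exact mul_mono le_sup_left le_sup_right

/-- Ideals of norm `m * n` split uniquely for coprime `m`, `n`. -/
def idealNormSplit {m n : ℕ} (hm : m ≠ 0) (hn : n ≠ 0) (hmn : m.Coprime n) :
    {I : Ideal (𝓞 K) // absNorm I = m * n} ≃
      {I : Ideal (𝓞 K) // absNorm I = m} × {I : Ideal (𝓞 K) // absNorm I = n} where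
  toFun I :=
    have hm' := absNorm_sup_span_dvd hmn I.2
    have hn' := absNorm_sup_span_dvd hmn.symm (I.2.trans (mul_comm m n))
    have hprod := (sup_span_mul_sup_span hmn I.2.dvd).symm
    have hmul : absNorm (I.1 ⊔ span {(m : 𝓞 K)}) * absNorm (I.1 ⊔ span {(n : 𝓞 K)}) = m * n := by
      rw [← map_mul, ← hprod]; exact I.2
    have key : absNorm (I.1 ⊔ span {(m : 𝓞 K)}) = m ∧ absNorm (I.1 ⊔ span {(n : 𝓞 K)}) = n := by
      refine (mul_eq_mul_iff_eq_and_eq_of_pos' (Nat.le_of_dvd (Nat.pos_of_ne_zero hm) hm')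
        (Nat.le_of_dvd (Nat.pos_of_ne_zero hn) hn') (Nat.pos_of_ne_zero hm) ?_).mp hmul
      exact Nat.pos_of_ne_zero fun h => by simp [h, hm, hn] at hmul
    (⟨_, key.1⟩, ⟨_, key.2⟩)
  invFun p := ⟨p.1.1 * p.2.1, by rw [map_mul, p.1.2, p.2.2]⟩
  left_inv I := by
    exact Subtype.ext (sup_span_mul_sup_span hmn I.2.dvd)
  right_inv p := by
    have aux : ∀ {a b : ℕ} (A B : Ideal (𝓞 K)), a.Coprime b → absNorm A = a → absNorm B = b →
        A * B ⊔ span {(a : 𝓞 K)} = A := by
      intro a b A B hab hA hB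
      have ha : (a : 𝓞 K) ∈ A := natCast_mem_of_absNorm_dvd hA.dvd
      have hb : (b : 𝓞 K) ∈ B := natCast_mem_of_absNorm_dvd hB.dvd
      apply le_antisymm
      · exact sup_le Ideal.mul_le_left ((span_singleton_le_iff_mem _).mpr ha)
      · calc A = A * (span {(a : 𝓞 K)} ⊔ span {(b : 𝓞 K)}) := by
              rw [span_sup_span_eq_top hab, mul_top]
          _ ≤ A * (span {(a : 𝓞 K)} ⊔ B) :=
              mul_mono le_rfl (sup_le_sup_left ((span_singleton_le_iff_mem _).mpr hb) _)
          _ ≤ _ := by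
              rw [Ideal.mul_sup]
              exact sup_le (Ideal.mul_le_right.trans le_sup_right) le_sup_left
    ext1 <;> apply Subtype.ext
    · exact aux _ _ hmn p.1.2 p.2.2
    · change p.1.1 * p.2.1 ⊔ _ = _
      rw [mul_comm]; exact aux _ _ hmn.symm p.2.2 p.1.2

/-- The ideal count is multiplicative at coprime arguments. -/
lemma idealCount_mul {m n : ℕ} (hm : m ≠ 0) (hn : n ≠ 0) (hmn : m.Coprime n) :
    idealCount K (m * n) = idealCount K m * idealCount K n := by
  unfold idealCount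
  rw [Nat.card_congr (idealNormSplit hm hn hmn), Nat.card_prod]

variable (K)

/-- Finitely many primes lie over a prime number. -/
lemma finite_primesOverNat {p : ℕ} (hp : p.Prime) :
    {P : Ideal (𝓞 K) | P.IsPrime ∧ (p : 𝓞 K) ∈ P}.Finite := by
  apply Set.Finite.subset (finite_setOfPred_absNorm_le (S := 𝓞 K) (p ^ Module.finrank ℚ K))
  rintro P ⟨hP, hpP⟩
  change absNorm P ≤ _
  refine Nat.le_of_dvd (pow_pos hp.pos _) ?_
  rw [← absNorm_span_natCast (K := K) p]
  exact absNorm_dvd_absNorm_of_le ((span_singleton_le_iff_mem _).mpr hpP)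

/-- The (finite) set of primes of `K` above the rational prime `p`. -/
def primesAboveNat {p : ℕ} (hp : p.Prime) : Finset (Ideal (𝓞 K)) :=
  (finite_primesOverNat K hp).toFinset

variable {K}

/-- Membership in `primesAboveNat`. -/
lemma mem_primesAboveNat {p : ℕ} (hp : p.Prime) {P : Ideal (𝓞 K)} :
    P ∈ primesAboveNat K hp ↔ P.IsPrime ∧ (p : 𝓞 K) ∈ P := by
  simp [primesAboveNat]

/-- An ideal containing a prime number is not zero. -/
lemma ne_bot_of_natCast_mem {p : ℕ} (hp : p.Prime) {P : Ideal (𝓞 K)} (h : (p : 𝓞 K) ∈ P) :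
    P ≠ ⊥ := by
  rintro rfl
  exact hp.ne_zero (Nat.cast_eq_zero.mp (Ideal.mem_bot.mp h))

/-- The norm of a prime over `p` is divisible by `p`. -/
lemma prime_dvd_absNorm {p : ℕ} (hp : p.Prime) {P : Ideal (𝓞 K)} (hP : P.IsPrime)
    (h : (p : 𝓞 K) ∈ P) : p ∣ absNorm P := by
  have h1 : absNorm P ∣ p ^ Module.finrank ℚ K := by
    rw [← absNorm_span_natCast (K := K) p]
    exact absNorm_dvd_absNorm_of_le ((span_singleton_le_iff_mem _).mpr h)
  obtain ⟨i, -, hi⟩ := (Nat.dvd_prime_pow hp).mp h1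
  rcases Nat.eq_zero_or_pos i with rfl | hi0
  · exact absurd (absNorm_eq_one_iff.mp (by simpa using hi)) hP.ne_top
  · exact hi ▸ dvd_pow_self p hi0.ne'

variable (K)

/-- At most `[K : ℚ]` primes lie over a prime number. -/
lemma card_primesAboveNat_le {p : ℕ} (hp : p.Prime) :
    (primesAboveNat K hp).card ≤ Module.finrank ℚ K := by
  classical
  set S := primesAboveNat K hp with hS
  have hdvd : (∏ P ∈ S, P) ∣ span {(p : 𝓞 K)} := by
    refine Finset.prod_primes_dvd _ (fun P hP => ?_) (fun P hP => ?_)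
    · obtain ⟨h1, h2⟩ := (mem_primesAboveNat hp).mp hP
      exact Ideal.prime_of_isPrime (ne_bot_of_natCast_mem hp h2) h1
    · exact Ideal.dvd_iff_le.mpr
        ((span_singleton_le_iff_mem _).mpr ((mem_primesAboveNat hp).mp hP).2)
  have h2 := map_dvd (absNorm (S := 𝓞 K)) hdvd
  rw [map_prod, absNorm_span_natCast] at h2
  have h3 : p ^ S.card ∣ p ^ Module.finrank ℚ K := by
    refine dvd_trans ?_ h2
    rw [← Finset.prod_const]
    exact Finset.prod_dvd_prod_of_dvd _ _ fun P hP =>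
      prime_dvd_absNorm hp ((mem_primesAboveNat hp).mp hP).1 ((mem_primesAboveNat hp).mp hP).2
  exact (Nat.pow_dvd_pow_iff_le_right hp.one_lt).mp h3

/-- At most `[K : ℚ]` ideals have norm `p`. -/
lemma idealCount_prime_le {p : ℕ} (hp : p.Prime) : idealCount K p ≤ Module.finrank ℚ K := by
  refine le_trans ?_ (card_primesAboveNat_le K hp)
  unfold idealCount
  rw [← Nat.card_eq_finsetCard]
  refine Nat.card_le_card_of_injective (fun I => ⟨I.1, (mem_primesAboveNat hp).mpr
    ⟨isPrime_of_irreducible_absNorm (I.2.symm ▸ hp), natCast_mem_of_absNorm_dvd I.2.dvd⟩⟩) ?_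
  exact fun I J h => Subtype.ext (congrArg Subtype.val h :)

/-- At most `(e + 1) ^ [K : ℚ]` ideals have norm `p ^ e`. -/
lemma idealCount_prime_pow_le {p : ℕ} (hp : p.Prime) (e : ℕ) :
    idealCount K (p ^ e) ≤ (e + 1) ^ Module.finrank ℚ K := by
  classical
  set S := primesAboveNat K hp
  have hne : ∀ I : {I : Ideal (𝓞 K) // absNorm I = p ^ e}, I.1 ≠ 0 := fun I h => by
    exact (pow_ne_zero e hp.ne_zero) (by rw [← I.2, h, map_zero])
  -- The prime factors lie over `p`, each with exponent at most `e`.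
  have hmem : ∀ (I : {I : Ideal (𝓞 K) // absNorm I = p ^ e}) (P : Ideal (𝓞 K)),
      P ∈ UniqueFactorizationMonoid.normalizedFactors I.1 → P ∈ S := by
    intro I P hP
    have hpr : Prime P := UniqueFactorizationMonoid.prime_of_normalized_factor P hP
    have hP' : P.IsPrime := Ideal.isPrime_of_prime hpr
    refine (mem_primesAboveNat hp).mpr ⟨hP', hP'.mem_of_pow_mem e ?_⟩
    rw [← Nat.cast_pow]
    exact Ideal.dvd_iff_le.mp (UniqueFactorizationMonoid.dvd_of_mem_normalizedFactors hP)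
      (natCast_mem_of_absNorm_dvd I.2.dvd)
  have hcount : ∀ (I : {I : Ideal (𝓞 K) // absNorm I = p ^ e}) (P : Ideal (𝓞 K)), P ∈ S →
      (UniqueFactorizationMonoid.normalizedFactors I.1).count P ≤ e := by
    intro I P hP
    obtain ⟨h1, h2⟩ := (mem_primesAboveNat hp).mp hP
    set c := (UniqueFactorizationMonoid.normalizedFactors I.1).count P
    have hd : P ^ c ∣ I.1 := by
      refine dvd_trans ?_ (UniqueFactorizationMonoid.prod_normalizedFactors (hne I)).dvd
      rw [← Multiset.prod_replicate]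
      exact Multiset.prod_dvd_prod_of_le (Multiset.le_count_iff_replicate_le.mp le_rfl)
    have h3 := map_dvd (absNorm (S := 𝓞 K)) hd
    rw [map_pow, I.2] at h3
    exact (Nat.pow_dvd_pow_iff_le_right hp.one_lt).mp
      ((pow_dvd_pow_of_dvd (prime_dvd_absNorm hp h1 h2) c).trans h3)
  -- So the ideal is determined by its exponent vector.
  let φ : {I : Ideal (𝓞 K) // absNorm I = p ^ e} → (S → Fin (e + 1)) := fun I P =>
    ⟨(UniqueFactorizationMonoid.normalizedFactors I.1).count P.1,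
      Nat.lt_succ_of_le (hcount I P.1 P.2)⟩
  have hφ : Function.Injective φ := by
    intro I J h
    apply Subtype.ext
    rw [← associated_iff_eq,
      UniqueFactorizationMonoid.associated_iff_normalizedFactors_eq_normalizedFactors
        (hne I) (hne J)]
    refine Multiset.ext.mpr fun P => ?_
    by_cases hP : P ∈ S
    · exact congrArg Fin.val (congrFun h ⟨P, hP⟩)
    · rw [Multiset.count_eq_zero.mpr fun h' => hP (hmem I P h'),
        Multiset.count_eq_zero.mpr fun h' => hP (hmem J P h')]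
  calc idealCount K (p ^ e) ≤ Nat.card (S → Fin (e + 1)) := Nat.card_le_card_of_injective φ hφ
    _ = (e + 1) ^ S.card := by rw [Nat.card_fun]; simp
    _ ≤ _ := Nat.pow_le_pow_right (Nat.succ_pos e) (card_primesAboveNat_le K hp)

/-! ### Logarithmic asymptotics of prime sums -/

/-- The Dirichlet series over primes with coefficients `g`. -/
def primeSum (g : Nat.Primes → ℝ) (s : ℝ) : ℝ := ∑' p : Nat.Primes, g p * (p : ℝ) ^ (-s)

/-- `∑_p g(p) p^{-s} = c · log (1/(s-1)) + O(1)` as `s → 1+`, for bounded `g`. -/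
structure IsLogAsymp (g : Nat.Primes → ℝ) (c : ℝ) : Prop where
  /-- The function is bounded. -/
  bdd : ∃ M, ∀ p, |g p| ≤ M
  /-- The sum differs from `c · log (1/(s-1))` by a bounded amount near one. -/
  isBigO : (fun s => primeSum g s - c * (-Real.log (s - 1))) =O[𝓝[>] (1 : ℝ)] (fun _ => (1 : ℝ))

/-- The prime sum of a bounded function converges for `s > 1`. -/
lemma summable_primeSum {g : Nat.Primes → ℝ} {M : ℝ} (hM : ∀ p, |g p| ≤ M) {s : ℝ} (hs : 1 < s) :
    Summable fun p : Nat.Primes => g p * (p : ℝ) ^ (-s) := by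
  refine Summable.of_norm_bounded (g := fun p : Nat.Primes => M * (p : ℝ) ^ (-s))
    ((Nat.Primes.summable_rpow.mpr (by linarith)).mul_left M)
    fun p => ?_
  have hpos : (0 : ℝ) ≤ (p : ℝ) ^ (-s) := Real.rpow_nonneg (Nat.cast_nonneg _) _
  rw [Real.norm_eq_abs, abs_mul, abs_of_nonneg hpos]
  exact mul_le_mul_of_nonneg_right (hM p) hpos

namespace IsLogAsymp

variable {g g₁ g₂ : Nat.Primes → ℝ} {c c₁ c₂ : ℝ}

/-- The zero function has constant `0`. -/
lemma zero : IsLogAsymp (fun _ => 0) 0 := by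
  refine ⟨⟨0, by simp⟩, ?_⟩
  simp only [primeSum, zero_mul, tsum_zero, sub_self]
  exact isBigO_zero _ _

/-- The asymptotics of a difference. -/
lemma sub (h₁ : IsLogAsymp g₁ c₁) (h₂ : IsLogAsymp g₂ c₂) :
    IsLogAsymp (fun p => g₁ p - g₂ p) (c₁ - c₂) := by
  obtain ⟨M₁, hM₁⟩ := h₁.bdd
  obtain ⟨M₂, hM₂⟩ := h₂.bdd
  refine ⟨⟨M₁ + M₂, fun p => (abs_sub _ _).trans (add_le_add (hM₁ p) (hM₂ p))⟩, ?_⟩
  refine (h₁.isBigO.sub h₂.isBigO).congr' ?_ EventuallyEq.rfl
  filter_upwards [self_mem_nhdsWithin] with s hs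
  have : primeSum (fun p => g₁ p - g₂ p) s = primeSum g₁ s - primeSum g₂ s := by
    unfold primeSum
    rw [← (summable_primeSum hM₁ hs).tsum_sub (summable_primeSum hM₂ hs)]
    exact tsum_congr fun p => by ring
  rw [this]; ring

/-- The asymptotics of a sum. -/
lemma add (h₁ : IsLogAsymp g₁ c₁) (h₂ : IsLogAsymp g₂ c₂) :
    IsLogAsymp (fun p => g₁ p + g₂ p) (c₁ + c₂) := by
  simpa using h₁.sub (zero.sub h₂)

/-- The asymptotics of a multiple. -/
lemma const_mul (h : IsLogAsymp g c) (a : ℝ) : IsLogAsymp (fun p => a * g p) (a * c) := by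
  obtain ⟨M, hM⟩ := h.bdd
  refine ⟨⟨|a| * M, fun p => by
      rw [abs_mul]; exact mul_le_mul_of_nonneg_left (hM p) (abs_nonneg _)⟩, ?_⟩
  refine (h.isBigO.const_mul_left a).congr_left fun s => ?_
  have : primeSum (fun p => a * g p) s = a * primeSum g s := by
    unfold primeSum; rw [← tsum_mul_left]; exact tsum_congr fun p => by ring
  rw [this]; ring

/-- The asymptotics of a finite sum. -/
lemma finset_sum {ι : Type*} (t : Finset ι) (g : ι → Nat.Primes → ℝ) (c : ι → ℝ)
    (h : ∀ i ∈ t, IsLogAsymp (g i) (c i)) :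
    IsLogAsymp (fun p => ∑ i ∈ t, g i p) (∑ i ∈ t, c i) := by
  classical
  induction t using Finset.induction with
  | empty => simpa using zero
  | insert i t hi ih =>
    simp only [Finset.sum_insert hi]
    exact (h i (Finset.mem_insert_self _ _)).add (ih fun j hj => h j (Finset.mem_insert_of_mem hj))

/-- A finitely supported function has constant `0`. -/
lemma of_finite_support {M : ℝ} (hM : ∀ p, |g p| ≤ M) (hfin : {p | g p ≠ 0}.Finite) :
    IsLogAsymp g 0 := by
  refine ⟨⟨M, hM⟩, IsBigO.of_bound (∑ p ∈ hfin.toFinset, |g p|) ?_⟩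
  filter_upwards [self_mem_nhdsWithin] with s (hs : 1 < s)
  simp only [zero_mul, sub_zero, norm_one, mul_one, Real.norm_eq_abs, primeSum]
  rw [tsum_eq_sum (s := hfin.toFinset) (fun p hp => by simp_all)]
  refine (Finset.abs_sum_le_sum_abs _ _).trans (Finset.sum_le_sum fun p _ => ?_)
  rw [abs_mul, abs_of_nonneg (Real.rpow_nonneg (Nat.cast_nonneg _) _)]
  refine mul_le_of_le_one_right (abs_nonneg _) ?_
  exact Real.rpow_le_one_of_one_le_of_nonpos (by exact_mod_cast p.2.one_le) (by linarith)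

/-- Changing a bounded function at finitely many primes keeps the constant. -/
lemma congr_finite {g' : Nat.Primes → ℝ} (h : IsLogAsymp g c) {M : ℝ} (hM : ∀ p, |g' p| ≤ M)
    (hfin : {p | g p ≠ g' p}.Finite) : IsLogAsymp g' c := by
  obtain ⟨M', hM'⟩ := h.bdd
  have h2 : IsLogAsymp (fun p => g p - g' p) 0 :=
    of_finite_support (M := M' + M) (fun p => (abs_sub _ _).trans (add_le_add (hM' p) (hM p)))
      (hfin.subset fun p hp => sub_ne_zero.mp hp)
  simpa using h.sub h2

/-- A function with asymptotic constant zero has no other constant. -/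
lemma unique (h : IsLogAsymp g c) (h' : IsLogAsymp g 0) : c = 0 := by
  by_contra hc
  have h2 : (fun s => c * (-Real.log (s - 1))) =O[𝓝[>] (1 : ℝ)] (fun _ => (1 : ℝ)) :=
    (h'.isBigO.sub h.isBigO).congr_left fun s => by ring
  rw [isBigO_const_mul_left_iff hc, isBigO_neg_left] at h2
  have h3 : Tendsto (fun s : ℝ => Real.log (s - 1)) (𝓝[>] 1) atBot := by
    refine Real.tendsto_log_nhdsGT_zero.comp
      (tendsto_nhdsWithin_of_tendsto_nhds_of_eventually_within _ ?_ ?_)
    · simpa using ((continuous_sub_right (1 : ℝ)).tendsto 1).mono_left nhdsWithin_le_nhds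
    · filter_upwards [self_mem_nhdsWithin] with s hs using sub_pos.mpr (Set.mem_Ioi.mp hs)
  obtain ⟨B, hB⟩ := h2.bound
  obtain ⟨s, hs1, hs2⟩ := (hB.and (h3.eventually (eventually_lt_atBot (-|B| - 1)))).exists
  simp only [norm_one, mul_one, Real.norm_eq_abs] at hs1
  linarith [le_abs_self B, neg_abs_le (Real.log (s - 1))]

end IsLogAsymp

/-- The sum `∑ e, a(p^e) x^e` at `x = p^{-s}` is `1 + a(p) p^{-s} + O(p^{-2})`. -/
lemma exists_bound_log_eulerFactor :
    ∃ B : ℝ, ∀ (p : Nat.Primes) (s : ℝ), 1 < s →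
      0 < (∑' e : ℕ, (idealCount K ((p : ℕ) ^ e) : ℝ) * (((p : ℕ) ^ e : ℕ) : ℝ) ^ (-s)) ∧
      |Real.log (∑' e : ℕ, (idealCount K ((p : ℕ) ^ e) : ℝ) * (((p : ℕ) ^ e : ℕ) : ℝ) ^ (-s))
        - (idealCount K p : ℝ) * (p : ℝ) ^ (-s)| ≤ B * (p : ℝ) ^ (-2 : ℝ) := by
  set d := Module.finrank ℚ K
  -- for `x ≤ 1 / 2` the tail from the second power on is at most `C x²`
  have hsumC : Summable fun e : ℕ => ((e + 3 : ℕ) : ℝ) ^ d * (1 / 2 : ℝ) ^ e := by
    have h := (summable_nat_add_iff 3).mpr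
      (summable_pow_mul_geometric_of_norm_lt_one d (r := (1 / 2 : ℝ)) (by norm_num))
    refine (h.mul_left (8 : ℝ)).congr fun e => ?_
    rw [pow_add]; push_cast; ring
  set C : ℝ := ∑' e : ℕ, ((e + 3 : ℕ) : ℝ) ^ d * (1 / 2 : ℝ) ^ e
  have hC : 0 ≤ C := tsum_nonneg fun e => by positivity
  refine ⟨C + (d + C) ^ 2, fun p s hs => ?_⟩
  set x : ℝ := (p : ℝ) ^ (-s)
  have hp1 : (1 : ℝ) < p := by exact_mod_cast p.2.one_lt
  have hx0 : 0 < x := Real.rpow_pos_of_pos (by linarith) _
  have hxp : x ≤ (p : ℝ) ^ (-1 : ℝ) := Real.rpow_le_rpow_of_exponent_le hp1.le (by linarith)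
  have hxh : x ≤ 1 / 2 := by
    refine hxp.trans ?_
    rw [Real.rpow_neg_one, one_div]
    exact inv_anti₀ two_pos (by exact_mod_cast p.2.two_le)
  have hx2 : x ^ 2 ≤ (p : ℝ) ^ (-2 : ℝ) := by
    calc x ^ 2 ≤ ((p : ℝ) ^ (-1 : ℝ)) ^ 2 := pow_le_pow_left₀ hx0.le hxp 2
      _ = _ := by rw [← Real.rpow_natCast, ← Real.rpow_mul (by linarith)]; norm_num
  have hterm : ∀ e : ℕ, (((p : ℕ) ^ e : ℕ) : ℝ) ^ (-s) = x ^ e := by
    intro e
    rw [Nat.cast_pow, ← Real.rpow_natCast, ← Real.rpow_mul (by linarith), mul_comm,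
      Real.rpow_mul_natCast (by linarith)]
  set a : ℕ → ℝ := fun e => (idealCount K ((p : ℕ) ^ e) : ℝ) with ha
  -- compare the tail with the series of `C`
  have hb : ∀ e, a (e + 2) * x ^ (e + 2) ≤ x ^ 2 * (((e + 3 : ℕ) : ℝ) ^ d * (1 / 2 : ℝ) ^ e) := by
    intro e
    have h1 : a (e + 2) ≤ ((e + 3 : ℕ) : ℝ) ^ d := by
      rw [ha, ← Nat.cast_pow]
      exact Nat.cast_le.mpr (idealCount_prime_pow_le K p.2 (e + 2))
    calc a (e + 2) * x ^ (e + 2) ≤ ((e + 3 : ℕ) : ℝ) ^ d * ((1 / 2) ^ e * x ^ 2) := by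
          refine mul_le_mul h1 ?_ (by positivity) (by positivity)
          rw [pow_add]
          exact mul_le_mul_of_nonneg_right (pow_le_pow_left₀ hx0.le hxh e) (by positivity)
      _ = _ := by ring
  have hsR : Summable fun e => a (e + 2) * x ^ (e + 2) :=
    Summable.of_nonneg_of_le (fun e => by positivity) hb (hsumC.mul_left _)
  have hs0 : Summable fun e => a e * x ^ e := (summable_nat_add_iff 2).mp hsR
  set R : ℝ := ∑' e, a (e + 2) * x ^ (e + 2)
  have hR0 : 0 ≤ R := tsum_nonneg fun e => by positivity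
  have hRle : R ≤ x ^ 2 * C := by
    refine (hsR.tsum_le_tsum hb (hsumC.mul_left _)).trans_eq ?_
    exact tsum_mul_left
  -- split off the first two terms
  have hsplit : ∑' e, a e * x ^ e = 1 + a 1 * x + R := by
    rw [← hs0.sum_add_tsum_nat_add 2]
    simp [Finset.sum_range_succ, ha, idealCount_one, R]
  simp only [hterm]
  have ha1 : a 1 = idealCount K p := by simp [ha]
  have had : a 1 ≤ d := by rw [ha1]; exact_mod_cast idealCount_prime_le K p.2
  rw [show (∑' e, (idealCount K ((p : ℕ) ^ e) : ℝ) * x ^ e) = 1 + a 1 * x + R from hsplit, ← ha1]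
  set t : ℝ := a 1 * x + R with ht
  have ht0 : 0 ≤ t := by positivity
  have htx : t ≤ (d + C) * x := by
    have : x ^ 2 * C ≤ x * C := mul_le_mul_of_nonneg_right (by nlinarith) hC
    nlinarith [hRle]
  refine ⟨by linarith, ?_⟩
  -- `t - t² ≤ log (1 + t) ≤ t` with `t = O(x)`
  have hlog_le : Real.log (1 + a 1 * x + R) ≤ t :=
    (Real.log_le_sub_one_of_pos (by linarith)).trans_eq (by rw [ht]; ring)
  have hlog_ge : t - t ^ 2 ≤ Real.log (1 + a 1 * x + R) := by
    rw [show 1 + a 1 * x + R = 1 + t by rw [ht]; ring]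
    refine le_trans ?_ (Real.one_sub_inv_le_log_of_pos (by linarith))
    rw [show (1 : ℝ) - (1 + t)⁻¹ = t / (1 + t) by field_simp; ring, le_div_iff₀ (by linarith)]
    nlinarith [pow_nonneg ht0 3]
  have ht2 : t ^ 2 ≤ (d + C) ^ 2 * x ^ 2 := by
    rw [← mul_pow]; exact pow_le_pow_left₀ ht0 htx 2
  have hB : (C + (d + C) ^ 2) * x ^ 2 ≤ (C + (d + C) ^ 2) * (p : ℝ) ^ (-2 : ℝ) :=
    mul_le_mul_of_nonneg_left hx2 (by positivity)
  rw [abs_le]
  constructor <;> nlinarith

/-- The (real) Dedekind zeta series. -/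
def zetaReal (s : ℝ) : ℝ := ∑' n : ℕ, (idealCount K n : ℝ) * (n : ℝ) ^ (-s)

/-- The zeta series at a real point is the Dedekind zeta function. -/
lemma dedekindZeta_ofReal {s : ℝ} (hs : 0 < s) : dedekindZeta K s = (zetaReal K s : ℂ) := by
  rw [zetaReal, Complex.ofReal_tsum]
  refine tsum_congr fun n => ?_
  rcases eq_or_ne n 0 with rfl | hn
  · simp [LSeries.term_zero, Real.zero_rpow (neg_ne_zero.mpr hs.ne')]
  · rw [LSeries.term_of_ne_zero hn, Complex.ofReal_mul, Complex.ofReal_cpow n.cast_nonneg,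
      Complex.ofReal_neg, Complex.cpow_neg, div_eq_mul_inv]
    simp [idealCount]

/-- The zeta series has a simple pole at `1`. -/
lemma tendsto_sub_one_mul_zetaReal :
    Tendsto (fun s : ℝ => (s - 1) * zetaReal K s) (𝓝[>] 1) (𝓝 (dedekindZeta_residue K)) := by
  refine tendsto_ofReal_iff.mp ((tendsto_sub_one_mul_dedekindZeta_nhdsGT K).congr' ?_)
  filter_upwards [self_mem_nhdsWithin] with s (hs : 1 < s)
  rw [dedekindZeta_ofReal K (by linarith)]
  push_cast
  ring

/-- `∑_p a_K(p) p^{-s} = log (1/(s-1)) + O(1)`. -/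
theorem isLogAsymp_idealCount : IsLogAsymp (fun p => (idealCount K p : ℝ)) 1 := by
  refine ⟨⟨Module.finrank ℚ K, fun p => ?_⟩, ?_⟩
  · rw [Nat.abs_cast]; exact_mod_cast idealCount_prime_le K p.2
  -- The logarithm of each Euler factor is `a(p) p ^ (-s)` up to `B p ^ (-2)`.
  obtain ⟨B, hB⟩ := exists_bound_log_eulerFactor K
  set Z : ℝ := ∑' p : Nat.Primes, B * (p : ℝ) ^ (-2 : ℝ)
  have hZs : Summable fun p : Nat.Primes => B * (p : ℝ) ^ (-2 : ℝ) :=
    (Nat.Primes.summable_rpow.mpr (by norm_num)).mul_left B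
  have hres := dedekindZeta_residue_pos K
  have hlog : Tendsto (fun s => Real.log ((s - 1) * zetaReal K s)) (𝓝[>] 1)
      (𝓝 (Real.log (dedekindZeta_residue K))) :=
    ((Real.continuousAt_log hres.ne').tendsto).comp (tendsto_sub_one_mul_zetaReal K)
  refine IsBigO.of_bound (Z + (|Real.log (dedekindZeta_residue K)| + 1)) ?_
  filter_upwards [self_mem_nhdsWithin,
    (tendsto_sub_one_mul_zetaReal K).eventually (eventually_gt_nhds hres),
    hlog.abs.eventually (eventually_lt_nhds (lt_add_one _))] with s (hs : 1 < s) hpos hbd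
  have hz : 0 < zetaReal K s := (pos_iff_pos_of_mul_pos hpos).mp (sub_pos.mpr hs)
  set f : ℕ → ℝ := fun n => (idealCount K n : ℝ) * (n : ℝ) ^ (-s) with hf
  have hfsum : Summable f := by
    by_contra h
    exact hz.ne' (tsum_eq_zero_of_not_summable h)
  have hf0 : f 0 = 0 := by simp [hf, Real.zero_rpow (show -s ≠ 0 by linarith)]
  -- So `log ζ_K(s)` is the prime sum up to `O(1)`.
  have hprod : HasProd (fun p : Nat.Primes => ∑' e, f ((p : ℕ) ^ e)) (zetaReal K s) := by
    refine EulerProduct.eulerProduct_hasProd (by simp [hf, idealCount_one]) ?_ hfsum.norm hf0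
    intro m n hmn
    rcases eq_or_ne m 0 with rfl | hm
    · simp [hf0]
    rcases eq_or_ne n 0 with rfl | hn
    · simp [hf0]
    simp only [hf, idealCount_mul hm hn hmn, Nat.cast_mul,
      Real.mul_rpow m.cast_nonneg n.cast_nonneg]
    ring
  have hF : ∀ p : Nat.Primes, 0 < ∑' e, f ((p : ℕ) ^ e) := fun p => (hB p s hs).1
  have hsum : HasSum (fun p : Nat.Primes => Real.log (∑' e, f ((p : ℕ) ^ e)))
      (Real.log (zetaReal K s)) := by
    refine Tendsto.congr (fun t => ?_) ((Real.continuousAt_log hz.ne').tendsto.comp hprod)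
    simp [Real.log_prod (fun p _ => (hF p).ne')]
  have hM : ∀ p : Nat.Primes, |(idealCount K p : ℝ)| ≤ Module.finrank ℚ K := fun p => by
    rw [Nat.abs_cast]; exact_mod_cast idealCount_prime_le K p.2
  have h1 : |Real.log (zetaReal K s) - primeSum (fun p => (idealCount K p : ℝ)) s| ≤ Z := by
    rw [← hsum.tsum_eq, primeSum, ← hsum.summable.tsum_sub (summable_primeSum hM hs)]
    rw [← Real.norm_eq_abs]
    exact tsum_of_norm_bounded hZs.hasSum fun p => (hB p s hs).2
  rw [norm_one, mul_one, Real.norm_eq_abs, one_mul]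
  -- And `(s - 1) ζ_K(s)` tends to the residue, which is positive.
  have h2 : primeSum (fun p => (idealCount K p : ℝ)) s - -Real.log (s - 1) =
      Real.log ((s - 1) * zetaReal K s)
        - (Real.log (zetaReal K s) - primeSum (fun p => (idealCount K p : ℝ)) s) := by
    rw [Real.log_mul (sub_pos.mpr hs).ne' hz.ne']; ring
  rw [h2]
  exact (abs_sub _ _).trans (by linarith)

end Fermat.CFT
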